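import Fermat.Agent.S19.WR.P1
import Fermat.Agent.DIV.Val

set_option autoImplicit false

/-!
# S19 / WR, part (D): Weil reciprocity from the chart statement
-/

namespace Fermat.Agent.S19.WR

open Polynomial AlgebraicCurve IntermediateField Fermat.Agent.S24 Fermat.Agent

variable {K F : Type*} [Field K] [Field F] [Algebra K F] [IsAlgClosed K]

/-- The output of parts (A)+(B): the norm of `f` to `K(y)` in the chart `K[y]`. -/
def ChartStatement (h : IsFF1 K F) (E : IntermediateField K F) (y f : F) : Prop :=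
  ∃ n d : K[X], n ≠ 0 ∧ d ≠ 0 ∧
    algebraMap E F (Algebra.norm E f) * aeval y d = aeval y n ∧
    (∀ c : K, (n.rootMultiplicity c : ℤ) - d.rootMultiplicity c =
      ∑ᶠ v : Place K F, if 0 < v.ord (y - algebraMap K F c) then v.ord f else 0) ∧
    (∀ c : K, (∀ v : Place K F, 0 < v.ord (y - algebraMap K F c) → v.ord f = 0) →
      d.eval c ≠ 0 ∧ n.eval c = d.eval c *
        ∏ᶠ v : Place K F, DIV.valAt h v f ^ (max (v.ord (y - algebraMap K F c)) 0).toNat)

theorem finite_ord_ne_zero [CharZero K] (h : IsFF1 K F) {f : F} (hf : f ≠ 0) :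
    {v : Place K F | v.ord f ≠ 0}.Finite := by
  by_cases hr : f ∈ Set.range (algebraMap K F)
  · obtain ⟨a, rfl⟩ := hr
    have : {v : Place K F | v.ord (algebraMap K F a) ≠ 0} = ∅ := by
      ext v
      simp [ord_algebraMap]
    rw [this]
    exact Set.finite_empty
  have ht : Transcendental K f := transcendental_of_not_mem_range hr
  have ht' : Transcendental K f⁻¹ := by
    apply transcendental_of_not_mem_range
    rintro ⟨a, ha⟩
    apply hr
    exact ⟨a⁻¹, by rw [map_inv₀, ha, inv_inv]⟩
  refine ((finite_ord_pos h ht).union (finite_ord_pos h ht')).subset ?_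
  intro v hv
  simp only [Set.mem_ofPred_eq, Set.mem_union, Place.ord_inv] at hv ⊢
  omega

theorem sum_ord_eq_zero [CharZero K] (h : IsFF1 K F) {f : F} (hf : f ≠ 0) :
    ∑ v ∈ (finite_ord_ne_zero h hf).toFinset, v.ord f = 0 := by
  classical
  let D : Divisor K F := Finsupp.onFinset (finite_ord_ne_zero h hf).toFinset (fun v => v.ord f)
    (fun v hv => by simpa using hv)
  have hD : ∀ v, D v = v.ord f := fun v => rfl
  have h1 := degree_eq_zero_of_principal h hf D hD
  rw [principal_degree_eq_sum h] at h1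
  refine Eq.trans ?_ h1
  refine Finset.sum_congr ?_ fun v _ => (hD v).symm
  ext v
  simp [hD]

theorem valAt_ne_zero_of_ord_eq_zero (h : IsFF1 K F) (v : Place K F) {f : F} (hf : f ≠ 0)
    (h0 : v.ord f = 0) : DIV.valAt h v f ≠ 0 := by
  intro h1
  have := (DIV.valAt_eq_zero_iff h v (mem_of_ord_nonneg v h0.ge) hf).mp h1
  omega

theorem prod_zpow_eq_zpow_sum {ι : Type*} (s : Finset ι) (a : ι → ℤ) {c : K} (hc : c ≠ 0) :
    ∏ i ∈ s, c ^ (a i) = c ^ (∑ i ∈ s, a i) := by
  classical
  induction s using Finset.induction_on with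
  | empty => simp
  | insert i s hi ih => rw [Finset.prod_insert hi, Finset.sum_insert hi, ih, zpow_add₀ hc]

/-- the constant case. -/
theorem weil_const [CharZero K] (h : IsFF1 K F) {f : F} (hf : f ≠ 0) (c : K) (hc : c ≠ 0) :
    ∏ᶠ v : Place K F, DIV.valAt h v (algebraMap K F c) ^ (v.ord f) = 1 := by
  have h1 : ∀ v : Place K F, DIV.valAt h v (algebraMap K F c) ^ (v.ord f) = c ^ (v.ord f) :=
    fun v => by rw [DIV.valAt_algebraMap]
  simp only [h1]
  rw [finprod_eq_prod_of_mulSupport_subset (s := (finite_ord_ne_zero h hf).toFinset)]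
  · rw [prod_zpow_eq_zpow_sum _ _ hc, sum_ord_eq_zero h hf, zpow_zero]
  · intro v hv
    simp only [Function.mem_mulSupport] at hv
    simp only [Set.Finite.coe_toFinset, Set.mem_ofPred_eq]
    intro h0
    exact hv (by rw [h0, zpow_zero])

theorem roots_prod_eq [DecidableEq K] (p : K[X]) (U : Finset K) (hU : p.roots.toFinset ⊆ U) :
    p.roots.prod = ∏ c ∈ U, c ^ (p.rootMultiplicity c) := by
  rw [Finset.prod_multiset_count]
  simp only [count_roots]
  refine Finset.prod_subset hU fun c _ hc => ?_
  have : p.roots.count c = 0 := Multiset.count_eq_zero.mpr (by simpa using hc)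
  rw [count_roots] at this
  rw [this, pow_zero]

theorem roots_prod_ne_zero {p : K[X]} (hp : p.eval 0 ≠ 0) : p.roots.prod ≠ 0 := by
  apply Multiset.prod_ne_zero
  intro h0
  exact hp (isRoot_of_mem_roots h0)

/-- the sum over the fibre of `g` above `c`. -/
theorem fibre_sum [CharZero K] (h : IsFF1 K F) {f g : F} (hf : f ≠ 0) (hg : Transcendental K g)
    (hdisj : ∀ v : Place K F, v.ord f = 0 ∨ v.ord g = 0) (c : K) [DecidableEq K] :
    (∑ᶠ v : Place K F, if 0 < v.ord (g - algebraMap K F c) then v.ord f else 0) =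
      ∑ v ∈ (finite_ord_ne_zero h hf).toFinset with DIV.valAt h v g = c, v.ord f := by
  rw [finsum_eq_sum_of_support_subset
    (s := (finite_ord_ne_zero h hf).toFinset.filter (fun v => DIV.valAt h v g = c))]
  · refine Finset.sum_congr rfl fun v hv => ?_
    simp only [Finset.mem_filter, Set.Finite.mem_toFinset, Set.mem_ofPred_eq] at hv
    have h0 : v.ord g = 0 := (hdisj v).resolve_left hv.1
    have hne : g ≠ algebraMap K F c := fun h1 => hg (h1 ▸ isAlgebraic_algebraMap c)
    rw [if_pos ((DIV.valAt_eq_iff h v (mem_of_ord_nonneg v h0.ge) hne).mp hv.2)]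
  · intro v hv
    simp only [Function.mem_support] at hv
    simp only [Finset.coe_filter, Set.Finite.mem_toFinset, Set.mem_ofPred_eq]
    by_cases h1 : 0 < v.ord (g - algebraMap K F c)
    · rw [if_pos h1] at hv
      exact ⟨hv, (DIV.valAt_eq_of_ord_pos h v h1).2⟩
    · rw [if_neg h1] at hv
      exact absurd rfl hv

theorem finprod_ne_zero' {ι : Type*} (a : ι → K) (ha : ∀ i, a i ≠ 0) : ∏ᶠ i, a i ≠ 0 :=
  finprod_induction (· ≠ 0) one_ne_zero (fun _ _ hx hy => mul_ne_zero hx hy) ha

/-- **Weil reciprocity**, assuming the chart statements for `g` and `1/g`. -/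
theorem weil_of_chart [CharZero K] (h : IsFF1 K F) {f g : F} (hf : f ≠ 0)
    (hg : Transcendental K g) (hdisj : ∀ v : Place K F, v.ord f = 0 ∨ v.ord g = 0)
    (C1 : ChartStatement h K⟮g⟯ g f) (C2 : ChartStatement h K⟮g⟯ g⁻¹ f) :
    ∏ᶠ v : Place K F, DIV.valAt h v f ^ (v.ord g) =
      ∏ᶠ v : Place K F, DIV.valAt h v g ^ (v.ord f) := by
  classical
  have hg0 : g ≠ 0 := fun h0 => hg (h0 ▸ isAlgebraic_zero)
  obtain ⟨n, d, hn0, hd0, hN, hord, hval⟩ := C1
  obtain ⟨n', d', hn'0, hd'0, hN', -, hval'⟩ := C2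
  have hv := hval 0 (by
    intro v hv
    rw [map_zero, sub_zero] at hv
    exact (hdisj v).resolve_right hv.ne')
  have hv' := hval' 0 (by
    intro v hv
    rw [map_zero, sub_zero, Place.ord_inv] at hv
    exact (hdisj v).resolve_right (by omega))
  simp only [map_zero, sub_zero, Place.ord_inv] at hv hv'
  obtain ⟨hd, hnZ⟩ := hv
  obtain ⟨hd', hnP⟩ := hv'
  set Z : K := ∏ᶠ v : Place K F, DIV.valAt h v f ^ (max (v.ord g) 0).toNat with hZ
  set P : K := ∏ᶠ v : Place K F, DIV.valAt h v f ^ (max (-v.ord g) 0).toNat with hP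
  have hterm : ∀ v : Place K F, v.ord g ≠ 0 → DIV.valAt h v f ≠ 0 := fun v hv =>
    valAt_ne_zero_of_ord_eq_zero h v hf ((hdisj v).resolve_right hv)
  have hZ0 : Z ≠ 0 := by
    refine finprod_ne_zero' _ fun v => ?_
    by_cases h0 : v.ord g = 0
    · simp [h0]
    · exact pow_ne_zero _ (hterm v h0)
  have hP0 : P ≠ 0 := by
    refine finprod_ne_zero' _ fun v => ?_
    by_cases h0 : v.ord g = 0
    · simp [h0]
    · exact pow_ne_zero _ (hterm v h0)
  have hn : n.eval 0 ≠ 0 := by rw [hnZ]; exact mul_ne_zero hd hZ0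
  have hn' : n'.eval 0 ≠ 0 := by rw [hnP]; exact mul_ne_zero hd' hP0
  have H : aeval g n * aeval g⁻¹ d' = aeval g⁻¹ n' * aeval g d := by
    linear_combination (-(aeval g⁻¹ d')) * hN + (aeval g d) * hN'
  have hp1 := p1_lemma hg hn hd hn' hd' H
  have hRd := roots_prod_ne_zero hd
  -- the left hand side
  have hL : ∏ᶠ v : Place K F, DIV.valAt h v f ^ (v.ord g) = Z / P := by
    rw [hZ, hP, ← finprod_div_distrib]
    · refine finprod_congr fun v => ?_
      by_cases h0 : v.ord g = 0
      · simp [h0]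
      · have hx := hterm v h0
        rcases lt_or_gt_of_ne h0 with h1 | h1
        · rw [max_eq_right h1.le, max_eq_left (by omega : (0 : ℤ) ≤ -v.ord g), Int.toNat_zero,
            pow_zero, one_div, ← zpow_natCast, Int.toNat_of_nonneg (by omega), ← zpow_neg, neg_neg]
        · rw [max_eq_left h1.le, max_eq_right (by omega : -v.ord g ≤ (0 : ℤ)), Int.toNat_zero,
            pow_zero, div_one, ← zpow_natCast, Int.toNat_of_nonneg (by omega)]
    · refine (finite_ord_ne_zero h hg0).subset fun v hv => ?_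
      simp only [Function.mem_mulSupport] at hv
      simp only [Set.mem_ofPred_eq]
      intro h0
      exact hv (by simp [h0])
    · refine (finite_ord_ne_zero h hg0).subset fun v hv => ?_
      simp only [Function.mem_mulSupport] at hv
      simp only [Set.mem_ofPred_eq]
      intro h0
      exact hv (by simp [h0])
  -- the right hand side
  set T := (finite_ord_ne_zero h hf).toFinset with hT
  set U : Finset K := T.image (fun v => DIV.valAt h v g) ∪ (n.roots.toFinset ∪ d.roots.toFinset)
    with hU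
  have hU0 : ∀ c ∈ U, c ≠ 0 := by
    intro c hc
    simp only [hU, Finset.mem_union, Finset.mem_image] at hc
    rcases hc with ⟨v, hv, rfl⟩ | hc | hc
    · simp only [hT, Set.Finite.mem_toFinset, Set.mem_ofPred_eq] at hv
      exact valAt_ne_zero_of_ord_eq_zero h v hg0 ((hdisj v).resolve_left hv)
    · rintro rfl
      exact hn (isRoot_of_mem_roots (Multiset.mem_toFinset.mp hc))
    · rintro rfl
      exact hd (isRoot_of_mem_roots (Multiset.mem_toFinset.mp hc))
  have hR : ∏ᶠ v : Place K F, DIV.valAt h v g ^ (v.ord f) = n.roots.prod / d.roots.prod := by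
    rw [finprod_eq_prod_of_mulSupport_subset (s := T)]
    · rw [← Finset.prod_fiberwise_of_maps_to (t := U) (g := fun v => DIV.valAt h v g)
        (fun v hv => Finset.mem_union_left _ (Finset.mem_image_of_mem _ hv))]
      rw [roots_prod_eq n U (fun c hc => Finset.mem_union_right _ (Finset.mem_union_left _ hc)),
        roots_prod_eq d U (fun c hc => Finset.mem_union_right _ (Finset.mem_union_right _ hc)),
        ← Finset.prod_div_distrib]
      refine Finset.prod_congr rfl fun c hc => ?_
      have hc0 := hU0 c hc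
      have h1 : ∏ v ∈ T with DIV.valAt h v g = c, DIV.valAt h v g ^ (v.ord f) =
          ∏ v ∈ T with DIV.valAt h v g = c, c ^ (v.ord f) := by
        refine Finset.prod_congr rfl fun v hv => ?_
        rw [(Finset.mem_filter.mp hv).2]
      rw [h1, prod_zpow_eq_zpow_sum _ _ hc0, ← fibre_sum h hf hg hdisj c, ← hord c,
        zpow_sub₀ hc0, zpow_natCast, zpow_natCast]
    · intro v hv
      simp only [Function.mem_mulSupport] at hv
      simp only [hT, Set.Finite.coe_toFinset, Set.mem_ofPred_eq]
      intro h0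
      exact hv (by rw [h0, zpow_zero])
  rw [hL, hR, div_eq_div_iff hP0 hRd]
  rw [hnZ, hnP] at hp1
  have h2 : (d.eval 0 * d'.eval 0) * (Z * d.roots.prod) =
      (d.eval 0 * d'.eval 0) * (n.roots.prod * P) := by
    linear_combination hp1
  exact mul_left_cancel₀ (mul_ne_zero hd hd') h2

/-- **Weil reciprocity**, assuming the chart statement. -/
theorem weil_of_chartStatement [CharZero K] (h : IsFF1 K F)
    (C : ∀ (E : IntermediateField K F) (y f : F), Transcendental K y → E = K⟮y⟯ → f ≠ 0 →
      ChartStatement h E y f)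
    {f g : F} (hf : f ≠ 0) (hg : g ≠ 0)
    (hdisj : ∀ v : Place K F, v.ord f = 0 ∨ v.ord g = 0) :
    ∏ᶠ v : Place K F, DIV.valAt h v f ^ (v.ord g) =
      ∏ᶠ v : Place K F, DIV.valAt h v g ^ (v.ord f) := by
  by_cases hr : g ∈ Set.range (algebraMap K F)
  · obtain ⟨c, rfl⟩ := hr
    have hc : c ≠ 0 := by
      rintro rfl
      exact hg (map_zero _)
    rw [weil_const h hf c hc]
    simp [ord_algebraMap]
  have ht : Transcendental K g := transcendental_of_not_mem_range hr
  have ht' : Transcendental K g⁻¹ := by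
    apply transcendental_of_not_mem_range
    rintro ⟨a, ha⟩
    apply hr
    exact ⟨a⁻¹, by rw [map_inv₀, ha, inv_inv]⟩
  exact weil_of_chart h hf ht hdisj (C _ g f ht rfl hf)
    (C _ g⁻¹ f ht' (principal_adjoin_inv_eq g).symm hf)

end Fermat.Agent.S19.WR
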