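import Fermat.Agent.S19.WR.Ded
import Fermat.Agent.S19.WR.Assembly

set_option autoImplicit false

/-!
# S19 / WR, part (B): the chart statement
-/

namespace Fermat.Agent.S19.WR

open Polynomial AlgebraicCurve IsDedekindDomain IntermediateField Fermat.Agent.S24 Fermat.Agent
open scoped IntermediateField.algebraAdjoinAdjoin

section abstract

variable {K F : Type*} [Field K] [Field F] [Algebra K F]

variable {A E B : Type*} [CommRing A] [IsDedekindDomain A] [Field E] [Algebra A E]
  [IsFractionRing A E] [CommRing B] [IsDedekindDomain B] [Algebra A B] [Algebra B F]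
  [IsFractionRing B F] [Algebra E F] [Algebra A F] [IsScalarTower A B F] [IsScalarTower A E F]
  [Module.Finite A B] [Algebra K A] [Algebra K B] [IsScalarTower K A B] [IsScalarTower K B F]
  [IsAlgClosed K] [Module.IsTorsionFree A B]

omit [IsDedekindDomain A] [Module.Finite A B] [IsScalarTower K A B] [IsAlgClosed K]
  [Module.IsTorsionFree A B] in
theorem fibre_iff {y : F} (hy : Transcendental K y) (φ : K[X] ≃ₐ[K] A)
    (hφ : ∀ p, algebraMap A F (φ p) = aeval y p)
    (hmem : ∀ v : Place K F, 0 ≤ v.ord y → ∀ b : B, algebraMap B F b ∈ v.toValuationSubring)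
    (c : K) (v : Place K F) :
    0 < v.ord (y - algebraMap K F c) ↔ ∃ w : HeightOneSpectrum B,
      algebraMap A B (φ (X - C c)) ∈ w.asIdeal ∧ Place.ofHeightOneSpectrum (K := K) w = v := by
  have h1 : algebraMap B F (algebraMap A B (φ (X - C c))) = y - algebraMap K F c := by
    rw [← IsScalarTower.algebraMap_apply, hφ]
    simp
  have h2 : y - algebraMap K F c ≠ 0 := by
    intro h0
    exact hy (sub_eq_zero.mp h0 ▸ isAlgebraic_algebraMap c)
  have h3 : algebraMap A B (φ (X - C c)) ≠ 0 := by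
    intro h0
    rw [h0, map_zero] at h1
    exact h2 h1.symm
  constructor
  · intro hv
    have hy0 : 0 ≤ v.ord y := by
      apply ord_nonneg_of_mem
      have := add_mem (mem_of_ord_nonneg v hv.le) (v.algebraMap_mem' c)
      rwa [sub_add_cancel] at this
    obtain ⟨w, rfl⟩ := exists_ofHeightOneSpectrum_eq (R := B) v (hmem v hy0)
    refine ⟨w, ?_, rfl⟩
    rw [← h1] at hv
    exact (ord_ofHeightOneSpectrum_pos_iff (K := K) (F := F) w h3).mp hv
  · rintro ⟨w, hw, rfl⟩
    rw [← h1]
    exact (ord_ofHeightOneSpectrum_pos_iff (K := K) (F := F) w h3).mpr hw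

omit [IsDedekindDomain A] in
theorem prime_phi (φ : K[X] ≃ₐ[K] A) (c : K) : Prime (φ (X - C c)) :=
  (MulEquiv.prime_iff φ.toMulEquiv (p := X - C c)).mpr (prime_X_sub_C c)

omit [IsDedekindDomain A] in
theorem phi_sub_eval_mem (φ : K[X] ≃ₐ[K] A) (c : K) (q : K[X]) :
    φ q - algebraMap K A (q.eval c) ∈ Ideal.span {φ (X - C c)} := by
  rw [Ideal.mem_span_singleton]
  obtain ⟨r, hr⟩ := X_sub_C_dvd_sub_C_eval (a := c) (p := q)
  refine ⟨φ r, ?_⟩
  rw [← map_mul, ← hr, map_sub, ← algebraMap_eq, AlgEquiv.commutes]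

omit [IsDedekindDomain A] in
theorem surj_phi (φ : K[X] ≃ₐ[K] A) (c : K) (x : A) :
    ∃ c' : K, x - algebraMap K A c' ∈ Ideal.span {φ (X - C c)} := by
  obtain ⟨q, rfl⟩ := φ.surjective x
  exact ⟨q.eval c, phi_sub_eval_mem φ c q⟩

omit [IsDedekindDomain A] in
theorem eq_of_mem_span (φ : K[X] ≃ₐ[K] A) (c : K) {x : A} {c₁ c₂ : K}
    (h1 : x - algebraMap K A c₁ ∈ Ideal.span {φ (X - C c)})
    (h2 : x - algebraMap K A c₂ ∈ Ideal.span {φ (X - C c)}) : c₁ = c₂ := by
  by_contra hne
  have h3 : algebraMap K A (c₁ - c₂) ∈ Ideal.span {φ (X - C c)} := by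
    have := sub_mem h2 h1
    have e : algebraMap K A (c₁ - c₂) =
        (x - algebraMap K A c₂) - (x - algebraMap K A c₁) := by
      rw [map_sub]; ring
    rw [e]
    exact this
  have h4 : IsUnit (algebraMap K A (c₁ - c₂)) :=
    (isUnit_iff_ne_zero.mpr (sub_ne_zero.mpr hne)).map (algebraMap K A)
  have h5 := Ideal.eq_top_of_isUnit_mem _ h3 h4
  rw [Ideal.span_singleton_eq_top] at h5
  exact (prime_phi φ c).not_isUnit h5

omit [IsDedekindDomain A] [Module.Finite A B] [IsScalarTower K A B] [IsAlgClosed K]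
  [Module.IsTorsionFree A B] in
/-- an element which is regular at all finite places lies in `B`. -/
theorem exists_eq_of_ord_nonneg {y : F} (φ : K[X] ≃ₐ[K] A)
    (hφ : ∀ p, algebraMap A F (φ p) = aeval y p) (x : F)
    (hx : ∀ v : Place K F, 0 ≤ v.ord y → 0 ≤ v.ord x) : ∃ b : B, algebraMap B F b = x := by
  have := HeightOneSpectrum.mem_integers_of_valuation_le_one (R := B) F x (fun w => by
    have h1 : algebraMap B F (algebraMap A B (φ X)) = y := by
      rw [← IsScalarTower.algebraMap_apply, hφ, aeval_X]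
    have h2 : 0 ≤ (Place.ofHeightOneSpectrum (K := K) w).ord y := by
      apply ord_nonneg_of_mem
      rw [Place.ofHeightOneSpectrum_toValuationSubring, Valuation.mem_valuationSubring_iff, ← h1]
      exact w.valuation_le_one _
    have h3 := mem_of_ord_nonneg _ (hx _ h2)
    rwa [Place.ofHeightOneSpectrum_toValuationSubring, Valuation.mem_valuationSubring_iff] at h3)
  obtain ⟨b, hb⟩ := this
  exact ⟨b, hb⟩

/-- the finite set of places above `c`. -/
noncomputable def fib [CharZero K] (h : IsFF1 K F) {y : F} (hy : Transcendental K y) (c : K) :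
    Finset (Place K F) :=
  (finite_ord_pos h (DIV.val_transcendental_sub hy c)).toFinset

theorem mem_fib [CharZero K] (h : IsFF1 K F) {y : F} (hy : Transcendental K y) (c : K)
    (v : Place K F) : v ∈ fib h hy c ↔ 0 < v.ord (y - algebraMap K F c) := by
  simp [fib]

/-- the norm of an element of `B`, as a polynomial. -/
theorem chart_integral [CharZero K] [IsPrincipalIdealRing A] [IsIntegralClosure B A F]
    [FiniteDimensional E F] (h : IsFF1 K F) {y : F} (hy : Transcendental K y)
    (φ : K[X] ≃ₐ[K] A) (hφ : ∀ p, algebraMap A F (φ p) = aeval y p)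
    (hmem : ∀ v : Place K F, 0 ≤ v.ord y → ∀ b : B, algebraMap B F b ∈ v.toValuationSubring)
    (b : B) (hb : b ≠ 0) :
    ∃ n : K[X], n ≠ 0 ∧ algebraMap E F (Algebra.norm E (algebraMap B F b)) = aeval y n ∧
      (∀ c : K, (n.rootMultiplicity c : ℤ) = ∑ v ∈ fib h hy c, v.ord (algebraMap B F b)) ∧
      (∀ c : K, n.eval c = ∏ v ∈ fib h hy c,
        DIV.valAt h v (algebraMap B F b) ^ (v.ord (y - algebraMap K F c)).toNat) := by
  classical
  have hbF : algebraMap B F b ≠ 0 := by
    simpa using (IsFractionRing.injective B F).ne hb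
  have hnorm : algebraMap E F (Algebra.norm E (algebraMap B F b)) =
      aeval y (φ.symm (Algebra.intNorm A B b)) := by
    rw [← hφ, AlgEquiv.apply_symm_apply, IsScalarTower.algebraMap_apply A E F,
      Algebra.algebraMap_intNorm (K := E) (L := F)]
  have hn0 : φ.symm (Algebra.intNorm A B b) ≠ 0 := by
    intro h0
    rw [h0, map_zero] at hnorm
    have h1 : Algebra.norm E (algebraMap B F b) = 0 := by
      simpa using hnorm
    exact hbF (Algebra.norm_eq_zero_iff.mp h1)
  have hs : ∀ c : K, ∀ v, v ∈ fib h hy c ↔ ∃ w : HeightOneSpectrum B,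
      algebraMap A B (φ (X - C c)) ∈ w.asIdeal ∧ Place.ofHeightOneSpectrum (K := K) w = v :=
    fun c v => (mem_fib h hy c v).trans (fibre_iff hy φ hφ hmem c v)
  refine ⟨φ.symm (Algebra.intNorm A B b), hn0, hnorm, fun c => ?_, fun c => ?_⟩
  · rw [← ord_intNorm (φ (X - C c)) (prime_phi φ c) (surj_phi φ c) (fib h hy c) (hs c) b hb,
      rootMultiplicity_eq_multiplicity, if_neg hn0, ← multiplicity_map_eq φ,
      AlgEquiv.apply_symm_apply]
  · have h1 := val_intNorm h (φ (X - C c)) (prime_phi φ c) (surj_phi φ c) (fib h hy c)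
      (hs c) b
    have h2 := phi_sub_eval_mem φ c (φ.symm (Algebra.intNorm A B b))
    rw [AlgEquiv.apply_symm_apply] at h2
    have h3 := eq_of_mem_span φ c h2 h1
    rw [h3]
    have h4 : algebraMap A F (φ (X - C c)) = y - algebraMap K F c := by
      rw [hφ]; simp
    rw [h4]

omit [IsAlgClosed K] in
theorem aeval_ne_zero_of_transcendental {y : F} (hy : Transcendental K y) {p : K[X]} (hp : p ≠ 0) :
    aeval y p ≠ 0 := fun h0 => hp ((transcendental_iff.mp hy) p h0)

/-- a polynomial denominator with zeros only below the finite poles of `f`. -/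
theorem exists_denominator [CharZero K] (h : IsFF1 K F) {y f : F} (hy : Transcendental K y)
    (hf : f ≠ 0) :
    ∃ α : K[X], α ≠ 0 ∧ (∀ v : Place K F, 0 ≤ v.ord y → 0 ≤ v.ord (f * aeval y α)) ∧
      ∀ c : K, (∀ v : Place K F, 0 < v.ord (y - algebraMap K F c) → v.ord f = 0) →
        α.eval c ≠ 0 := by
  classical
  set T := (finite_ord_ne_zero h hf).toFinset.filter (fun v => 0 ≤ v.ord y) with hT
  have hne : ∀ c : K, y ≠ algebraMap K F c := fun c h1 => hy (h1 ▸ isAlgebraic_algebraMap c)
  refine ⟨∏ v ∈ T, (X - C (DIV.valAt h v y)) ^ (-v.ord f).toNat, ?_, ?_, ?_⟩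
  · exact Finset.prod_ne_zero_iff.mpr fun v _ => pow_ne_zero _ (X_sub_C_ne_zero _)
  · intro w hw
    have hα0 : (∏ v ∈ T, (X - C (DIV.valAt h v y)) ^ (-v.ord f).toNat) ≠ 0 :=
      Finset.prod_ne_zero_iff.mpr fun v _ => pow_ne_zero _ (X_sub_C_ne_zero _)
    have hwy := mem_of_ord_nonneg w hw
    rw [w.ord_mul hf (aeval_ne_zero_of_transcendental hy hα0)]
    by_cases hwf : 0 ≤ w.ord f
    · have := ord_nonneg_of_mem w (DIV.aeval_mem w hwy
        (∏ v ∈ T, (X - C (DIV.valAt h v y)) ^ (-v.ord f).toNat))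
      omega
    · have hwT : w ∈ T := by
        simp only [hT, Finset.mem_filter, Set.Finite.mem_toFinset, Set.mem_ofPred_eq]
        exact ⟨by omega, hw⟩
      rw [← Finset.mul_prod_erase T _ hwT, map_mul, map_pow]
      have hβ0 : (∏ v ∈ T.erase w, (X - C (DIV.valAt h v y)) ^ (-v.ord f).toNat) ≠ 0 :=
        Finset.prod_ne_zero_iff.mpr fun v _ => pow_ne_zero _ (X_sub_C_ne_zero _)
      have h1 : aeval y (X - C (DIV.valAt h w y)) = y - algebraMap K F (DIV.valAt h w y) := by
        simp
      have h2 := DIV.ord_sub_valAt_pos h w hwy (hne _)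
      have h3 := ord_nonneg_of_mem w (DIV.aeval_mem w hwy
        (∏ v ∈ T.erase w, (X - C (DIV.valAt h v y)) ^ (-v.ord f).toNat))
      rw [h1, w.ord_mul (pow_ne_zero _ (sub_ne_zero.mpr (hne _)))
        (aeval_ne_zero_of_transcendental hy hβ0), ord_pow]
      have h4 : (((-w.ord f).toNat : ℕ) : ℤ) = -w.ord f := Int.toNat_of_nonneg (by omega)
      rw [h4]
      nlinarith
  · intro c hc
    rw [eval_prod]
    refine Finset.prod_ne_zero_iff.mpr fun v hv => ?_
    simp only [hT, Finset.mem_filter, Set.Finite.mem_toFinset, Set.mem_ofPred_eq] at hv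
    by_cases hk : 0 ≤ v.ord f
    · have : (-v.ord f).toNat = 0 := by omega
      rw [this, pow_zero, eval_one]
      exact one_ne_zero
    · rw [eval_pow]
      apply pow_ne_zero
      rw [eval_sub, eval_X, eval_C, sub_ne_zero]
      intro h1
      have h2 := (DIV.valAt_eq_iff h v (mem_of_ord_nonneg v hv.2) (hne c)).mp h1.symm
      exact hv.1 (hc v h2)

/-- the chart statement, abstract form. -/
theorem chart_abstract [CharZero K] [IsPrincipalIdealRing A] [IsIntegralClosure B A F]
    [FiniteDimensional E F] (h : IsFF1 K F) {y : F} (hy : Transcendental K y)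
    (φ : K[X] ≃ₐ[K] A) (hφ : ∀ p, algebraMap A F (φ p) = aeval y p)
    (hmem : ∀ v : Place K F, 0 ≤ v.ord y → ∀ b : B, algebraMap B F b ∈ v.toValuationSubring)
    (f : F) (hf : f ≠ 0) :
    ∃ n d : K[X], n ≠ 0 ∧ d ≠ 0 ∧
    algebraMap E F (Algebra.norm E f) * aeval y d = aeval y n ∧
    (∀ c : K, (n.rootMultiplicity c : ℤ) - d.rootMultiplicity c =
      ∑ᶠ v : Place K F, if 0 < v.ord (y - algebraMap K F c) then v.ord f else 0) ∧
    (∀ c : K, (∀ v : Place K F, 0 < v.ord (y - algebraMap K F c) → v.ord f = 0) →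
      d.eval c ≠ 0 ∧ n.eval c = d.eval c *
        ∏ᶠ v : Place K F, DIV.valAt h v f ^ (max (v.ord (y - algebraMap K F c)) 0).toNat) := by
  classical
  obtain ⟨α, hα0, hαint, hαc⟩ := exists_denominator h hy hf
  have hαF := aeval_ne_zero_of_transcendental hy hα0
  obtain ⟨b₁, hb₁⟩ := exists_eq_of_ord_nonneg (B := B) φ hφ (f * aeval y α) hαint
  have hb₂ : algebraMap B F (algebraMap A B (φ α)) = aeval y α := by
    rw [← IsScalarTower.algebraMap_apply, hφ]
  have hb₁0 : b₁ ≠ 0 := by
    rintro rfl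
    rw [map_zero] at hb₁
    exact mul_ne_zero hf hαF hb₁.symm
  have hb₂0 : algebraMap A B (φ α) ≠ 0 := by
    intro h0
    rw [h0, map_zero] at hb₂
    exact hαF hb₂.symm
  obtain ⟨n, hn0, hnN, hnO, hnV⟩ := chart_integral (E := E) h hy φ hφ hmem b₁ hb₁0
  obtain ⟨d, hd0, hdN, hdO, hdV⟩ := chart_integral (E := E) h hy φ hφ hmem _ hb₂0
  rw [hb₁] at hnN
  rw [hb₂] at hdN
  simp only [hb₁] at hnO hnV
  simp only [hb₂] at hdO hdV
  refine ⟨n, d, hn0, hd0, ?_, fun c => ?_, fun c hc => ?_⟩
  · rw [← hnN, ← hdN, ← map_mul, ← map_mul]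
  · rw [hnO, hdO, ← Finset.sum_sub_distrib,
      finsum_eq_sum_of_support_subset (s := fib h hy c)]
    · refine Finset.sum_congr rfl fun v hv => ?_
      rw [if_pos ((mem_fib h hy c v).mp hv), v.ord_mul hf hαF]
      ring
    · intro v hv
      simp only [Function.mem_support] at hv
      rw [Finset.mem_coe, mem_fib]
      by_contra h1
      exact hv (if_neg h1)
  · have hval : ∀ v ∈ fib h hy c, DIV.valAt h v (aeval y α) = α.eval c := by
      intro v hv
      obtain ⟨h1, h2⟩ := DIV.valAt_eq_of_ord_pos h v ((mem_fib h hy c v).mp hv)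
      rw [DIV.valAt_aeval h v h1, h2]
    have hd : d.eval c ≠ 0 := by
      rw [hdV]
      refine Finset.prod_ne_zero_iff.mpr fun v hv => pow_ne_zero _ ?_
      rw [hval v hv]
      exact hαc c hc
    refine ⟨hd, ?_⟩
    rw [hnV, hdV, finprod_eq_prod_of_mulSupport_subset (s := fib h hy c), ← Finset.prod_mul_distrib]
    · refine Finset.prod_congr rfl fun v hv => ?_
      have hv' := (mem_fib h hy c v).mp hv
      obtain ⟨h1, -⟩ := DIV.valAt_eq_of_ord_pos h v hv'
      rw [DIV.valAt_mul h v (mem_of_ord_nonneg v (hc v hv').ge) (DIV.aeval_mem v h1 α), mul_pow,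
        max_eq_left hv'.le, mul_comm]
    · intro v hv
      simp only [Function.mem_mulSupport] at hv
      rw [Finset.mem_coe, mem_fib]
      by_contra h1
      apply hv
      rw [max_eq_right (not_lt.mp h1), Int.toNat_zero, pow_zero]

end abstract

variable {K F : Type*} [Field K] [Field F] [Algebra K F] [IsAlgClosed K]

/-- **the chart statement**. -/
theorem chart [CharZero K] (h : IsFF1 K F) (E : IntermediateField K F) (y f : F)
    (hy : Transcendental K y) (hE : E = K⟮y⟯) (hf : f ≠ 0) : ChartStatement h E y f := by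
  subst hE
  have := SumOrd.isPrincipalIdealRing_adjoin hy
  have := h.finiteDimensional hy
  have : IsDedekindDomain (integralClosure (Algebra.adjoin K {y}) F) :=
    integralClosure.isDedekindDomain (Algebra.adjoin K {y}) K⟮y⟯ F
  have : IsFractionRing (integralClosure (Algebra.adjoin K {y}) F) F :=
    integralClosure.isFractionRing_of_finite_extension K⟮y⟯ F
  have : Module.Finite (Algebra.adjoin K {y}) (integralClosure (Algebra.adjoin K {y}) F) :=
    IsIntegralClosure.finite (Algebra.adjoin K {y}) K⟮y⟯ F _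
  have : IsScalarTower K (integralClosure (Algebra.adjoin K {y}) F) F :=
    IsScalarTower.of_algebraMap_eq (fun _ => rfl)
  have : IsScalarTower K (Algebra.adjoin K {y}) (integralClosure (Algebra.adjoin K {y}) F) :=
    IsScalarTower.of_algebraMap_eq (fun _ => rfl)
  exact chart_abstract (A := Algebra.adjoin K {y}) (E := K⟮y⟯)
    (B := integralClosure (Algebra.adjoin K {y}) F) h hy
    (Polynomial.algEquivOfTranscendental K y hy)
    (fun p => by
      rw [Polynomial.algEquivOfTranscendental_apply]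
      exact (Polynomial.aeval_algebraMap_apply F
        (⟨y, Algebra.self_mem_adjoin_singleton K y⟩ : Algebra.adjoin K {y}) p).symm)
    (fun v hv b => SumOrd.mem_of_mem_integralClosure v hv b) f hf

/-- **Weil reciprocity**. -/
theorem weil_reciprocity [CharZero K] (h : IsFF1 K F) {f g : F} (hf : f ≠ 0) (hg : g ≠ 0)
    (hdisj : ∀ v : Place K F, v.ord f = 0 ∨ v.ord g = 0) :
    ∏ᶠ v : Place K F, DIV.valAt h v f ^ (v.ord g) =
      ∏ᶠ v : Place K F, DIV.valAt h v g ^ (v.ord f) :=
  weil_of_chartStatement h (fun E y f hy hE hf => chart h E y f hy hE hf) hf hg hdisj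

end Fermat.Agent.S19.WR
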