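import Fermat.Agent.S19.Defs
import Fermat.Agent.S19.WR.Chart

set_option autoImplicit false

/-!
# S19 / WR : `WRStatement`
-/

namespace Fermat.Agent.S19

open AlgebraicCurve Fermat.Agent.S24 Fermat.Agent

theorem evD_eq_finprod {K F : Type} [Field K] [Field F] [Algebra K F] [IsAlgClosed K]
    (h : IsFF1 K F) (D : Divisor K F) (f g : F) (hD : ∀ v : Place K F, v.ord g = D v) :
    evD h D f = ∏ᶠ v : Place K F, DIV.valAt h v f ^ (v.ord g) := by
  rw [finprod_eq_prod_of_mulSupport_subset (s := D.support)]
  · unfold evD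
    rw [Finsupp.prod]
    exact Finset.prod_congr rfl fun v _ => by rw [hD]
  · intro v hv
    simp only [Function.mem_mulSupport] at hv
    rw [Finset.mem_coe, Finsupp.mem_support_iff]
    intro h0
    apply hv
    rw [hD, h0, zpow_zero]

/-- **WR**. -/
theorem wr : WRStatement := by
  intro K F _ _ _ _ _ h f g Df Dg hf hg hdisj
  rw [evD_eq_finprod h Dg f g hg.2, evD_eq_finprod h Df g f hf.2]
  exact WR.weil_reciprocity h hf.1 hg.1 (fun v => by rw [hf.2, hg.2]; exact hdisj v)

end Fermat.Agent.S19
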