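import Fermat.Agent.S24.SumOrd
import Fermat.Agent.DIV.Val

set_option autoImplicit false

/-!
# S19 / WR / Conv : from multisets of prime factors to `finprod`s over places.
-/

namespace Fermat.Agent.S19.WR

open AlgebraicCurve IsDedekindDomain Ideal UniqueFactorizationMonoid
open Fermat.Agent.S24 Fermat.Agent.DIV

variable {K F : Type*} [Field K] [Field F] [Algebra K F]
variable {R : Type*} [CommRing R] [IsDedekindDomain R] [Algebra R F] [IsFractionRing R F]
  [Algebra K R] [IsScalarTower K R F]

theorem ord_eq_count (y : R) (hy : y ≠ 0) (w : HeightOneSpectrum R) :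
    (Place.ofHeightOneSpectrum (K := K) w).ord (algebraMap R F y) =
      ((normalizedFactors (span {y} : Ideal R)).count w.asIdeal : ℤ) := by
  classical
  have hyF : algebraMap R F y ≠ 0 := by
    simpa using (IsFractionRing.injective R F).ne hy
  rw [ord_ofHeightOneSpectrum w hyF, w.valuation_of_algebraMap, w.intValuation_if_neg hy,
    WithZero.log_exp, neg_neg,
    Ideal.count_associates_factors_eq (by simpa using hy) w.isPrime w.ne_bot]

theorem algebraMap_mem_ofHeightOneSpectrum (w : HeightOneSpectrum R) (r : R) :
    algebraMap R F r ∈ (Place.ofHeightOneSpectrum (K := K) w).toValuationSubring := by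
  rw [Place.ofHeightOneSpectrum_toValuationSubring, Valuation.mem_valuationSubring_iff]
  exact w.valuation_le_one r

theorem prod_factors_eq (y : R) (hy : y ≠ 0) (Φ : Ideal R → K) (G : Place K F → K)
    (hΦ : ∀ w : HeightOneSpectrum R, Φ w.asIdeal = G (Place.ofHeightOneSpectrum (K := K) w)) :
    ((normalizedFactors (span {y} : Ideal R)).map Φ).prod =
      ∏ᶠ v : Place K F, (open Classical in
        if (∃ w : HeightOneSpectrum R, Place.ofHeightOneSpectrum (K := K) w = v) then
          G v ^ (v.ord (algebraMap R F y)).toNat else 1) := by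
  classical
  set s := normalizedFactors (span {y} : Ideal R) with hs
  have hI : (span {y} : Ideal R) ≠ ⊥ := by simpa using hy
  have hinj : Function.Injective (HeightOneSpectrum.asIdeal (R := R)) := by
    intro w w' h; exact HeightOneSpectrum.ext h
  rw [Finset.prod_multiset_map_count]
  rw [← Finset.prod_preimage (HeightOneSpectrum.asIdeal (R := R)) s.toFinset hinj.injOn
    (fun P => Φ P ^ s.count P)]
  swap
  · intro P hP hr
    exfalso
    apply hr
    have hP' := Multiset.mem_toFinset.mp hP
    have h1 := (Ideal.mem_normalizedFactors_iff hI).mp hP'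
    exact ⟨⟨P, h1.1, ne_zero_of_mem_normalizedFactors hP'⟩, rfl⟩
  set W := s.toFinset.preimage (HeightOneSpectrum.asIdeal (R := R)) hinj.injOn with hW
  have hpl : Function.Injective (Place.ofHeightOneSpectrum (K := K) (F := F) (R := R)) :=
    ofHeightOneSpectrum_injective
  rw [finprod_eq_prod_of_mulSupport_subset (s := W.image (Place.ofHeightOneSpectrum (K := K))),
    Finset.prod_image (fun a _ b _ hab => hpl hab)]
  · refine Finset.prod_congr rfl fun w _ => ?_
    rw [if_pos ⟨w, rfl⟩, hΦ, ord_eq_count y hy w, Int.toNat_natCast]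
  · intro v hv
    rw [Function.mem_mulSupport] at hv
    by_cases hex : ∃ w : HeightOneSpectrum R, Place.ofHeightOneSpectrum (K := K) w = v
    · obtain ⟨w, rfl⟩ := hex
      rw [if_pos ⟨w, rfl⟩, ord_eq_count y hy w, Int.toNat_natCast] at hv
      have hc : s.count w.asIdeal ≠ 0 := by
        intro h0; rw [h0, pow_zero] at hv; exact hv rfl
      have : w.asIdeal ∈ s := Multiset.count_ne_zero.mp hc
      simp only [Finset.coe_image, Set.mem_image, Finset.mem_coe]
      exact ⟨w, by rw [hW, Finset.mem_preimage, Multiset.mem_toFinset]; exact this, rfl⟩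
    · rw [if_neg hex] at hv
      exact absurd rfl hv

end Fermat.Agent.S19.WR
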