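import Mathlib

set_option autoImplicit false

/-!
# S19 / WR / Eval : `ev (norm_A b) = norm_K (b mod a B)` for `ev : A → K` with kernel `(a)`.
-/

namespace Fermat.Agent.S19.WR

open Module

theorem norm_eval {K A B ι : Type*} [Field K] [CommRing A] [Algebra K A] [CommRing B] [Algebra A B]
    [Algebra K B] [IsScalarTower K A B] [Fintype ι] [DecidableEq ι] (𝔟 : Basis ι A B)
    (ev : A →ₐ[K] K) (a : A) (hker : ∀ x : A, x - algebraMap K A (ev x) ∈ Ideal.span {a})
    (ha : ev a = 0) (b : B) :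
    ev (Algebra.norm A b) =
      Algebra.norm K (Ideal.Quotient.mk (Ideal.span {algebraMap A B a}) b) := by
  set I : Ideal B := Ideal.span {algebraMap A B a} with hI
  -- the coordinate map
  let ψ : B →ₗ[K] (ι → K) :=
    { toFun := fun x i => ev (𝔟.repr x i)
      map_add' := by intro x y; ext i; simp
      map_smul' := by
        intro c x; ext i
        have h1 : c • x = (algebraMap K A c) • x := (algebraMap_smul A c x).symm
        show ev (𝔟.repr (c • x) i) = c • ev (𝔟.repr x i)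
        rw [h1, LinearEquiv.map_smul, Finsupp.smul_apply, smul_eq_mul, map_mul, AlgHom.commutes]
        rfl }
  have hψ : ∀ x i, ψ x i = ev (𝔟.repr x i) := fun _ _ => rfl
  have hψI : I.restrictScalars K ≤ LinearMap.ker ψ := by
    intro x hx
    obtain ⟨y, rfl⟩ := Ideal.mem_span_singleton'.mp hx
    rw [LinearMap.mem_ker]
    ext i
    have : y * algebraMap A B a = a • y := by rw [Algebra.smul_def, mul_comm]
    rw [hψ, this]
    simp [ha]
  let Ψ : (B ⧸ I) →ₗ[K] (ι → K) :=
    (Submodule.liftQ (I.restrictScalars K) ψ hψI) ∘ₗ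
      (Submodule.Quotient.restrictScalarsEquiv K I).symm.toLinearMap
  have hΨ : ∀ x : B, Ψ (Ideal.Quotient.mk I x) = ψ x := fun x => rfl
  have hinj : Function.Injective Ψ := by
    rw [← LinearMap.ker_eq_bot, LinearMap.ker_eq_bot']
    intro x hx
    obtain ⟨x, rfl⟩ := Ideal.Quotient.mk_surjective x
    rw [hΨ] at hx
    rw [Ideal.Quotient.eq_zero_iff_mem]
    have h1 : ∀ i, 𝔟.repr x i ∈ Ideal.span {a} := by
      intro i
      have h2 := hker (𝔟.repr x i)
      have h3 : ev (𝔟.repr x i) = 0 := congrFun hx i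
      rwa [h3, map_zero, sub_zero] at h2
    rw [← 𝔟.sum_repr x]
    refine Ideal.sum_mem _ fun i _ => ?_
    obtain ⟨r, hr⟩ := Ideal.mem_span_singleton'.mp (h1 i)
    rw [← hr, Algebra.smul_def, map_mul]
    have h4 : algebraMap A B r * algebraMap A B a * 𝔟 i =
        (algebraMap A B r * 𝔟 i) * algebraMap A B a := by ring
    rw [h4]
    exact Ideal.mul_mem_left I _ (Ideal.mem_span_singleton_self _)
  have hbas : ∀ j, Ψ (Ideal.Quotient.mk I (𝔟 j)) = Pi.single j 1 := by
    intro j
    rw [hΨ]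
    ext i
    rw [hψ, 𝔟.repr_self, Finsupp.single_apply, Pi.single_apply]
    split_ifs with h1 h2 h2
    · simp
    · exact absurd h1.symm h2
    · exact absurd h2.symm h1
    · simp
  have hsurj : Function.Surjective Ψ := by
    intro y
    refine ⟨∑ j, y j • Ideal.Quotient.mk I (𝔟 j), ?_⟩
    rw [map_sum]
    simp only [map_smul, hbas]
    ext i
    simp [Finset.sum_apply, Pi.single_apply]
  let e : (B ⧸ I) ≃ₗ[K] (ι → K) := LinearEquiv.ofBijective Ψ ⟨hinj, hsurj⟩
  let 𝔠 : Basis ι K (B ⧸ I) := Basis.ofEquivFun e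
  have h𝔠 : ∀ j, 𝔠 j = Ideal.Quotient.mk I (𝔟 j) := by
    intro j
    apply e.injective
    have h1 : e (𝔠 j) = Pi.single j 1 := by
      simp [𝔠, Basis.coe_ofEquivFun]
    rw [h1]
    exact (hbas j).symm
  have hM : Algebra.leftMulMatrix 𝔠 (Ideal.Quotient.mk I b) =
      ev.toRingHom.mapMatrix (Algebra.leftMulMatrix 𝔟 b) := by
    ext i j
    rw [Algebra.leftMulMatrix_eq_repr_mul, h𝔠, ← map_mul, RingHom.mapMatrix_apply, Matrix.map_apply,
      Algebra.leftMulMatrix_eq_repr_mul]
    rfl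
  rw [Algebra.norm_eq_matrix_det 𝔟, Algebra.norm_eq_matrix_det 𝔠, hM]
  exact RingHom.map_det ev.toRingHom _

end Fermat.Agent.S19.WR
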