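import Fermat.Agent.S24.SumOrd

set_option autoImplicit false

/-!
# S19 / WR / Fac : the factorisation of `norm_A b` (`A = K[T]`-like) in terms of the prime factors of `(b)`.
-/

namespace Fermat.Agent.S19.WR

open Ideal UniqueFactorizationMonoid

variable {K A B : Type*} [Field K] [IsAlgClosed K] [CommRing A] [IsDedekindDomain A] [CommRing B]
  [IsDedekindDomain B] [Algebra A B] [Module.Finite A B] [Module.IsTorsionFree A B]
  [Algebra K A] [Algebra K B] [IsScalarTower K A B] [PerfectField (FractionRing A)]

theorem relNorm_prime (T : A) (c : K) (hmax : (span {T - algebraMap K A c}).IsMaximal)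
    (hsurj : ∀ x : A, ∃ c' : K, x - algebraMap K A c' ∈ span {T - algebraMap K A c})
    (P : Ideal B) (hP : P.IsPrime) (hP0 : P ≠ ⊥) (hc : algebraMap A B T - algebraMap K B c ∈ P) :
    relNorm A P = span {T - algebraMap K A c} := by
  set p : Ideal A := span {T - algebraMap K A c} with hp
  have hPm : P.IsMaximal := hP.isMaximal hP0
  have hlies : P.LiesOver p := by
    constructor
    have h1 : p ≤ P.under A := by
      rw [hp, Ideal.span_singleton_le_iff_mem, Ideal.mem_comap, map_sub,
        ← IsScalarTower.algebraMap_apply K A B]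
      exact hc
    have h2 : (P.under A) ≠ ⊤ := (Ideal.IsPrime.under A P).ne_top
    exact hmax.eq_of_le h2 h1
  rw [relNorm_eq_pow_of_isMaximal P p, ← inertiaDeg'_eq_inertiaDeg p P,
    Fermat.Agent.S24.SumOrd.inertia_eq_one (K := K) p hsurj P, pow_one]

theorem relNorm_multiset (g : Ideal B → A) (s : Multiset (Ideal B))
    (hs : ∀ P ∈ s, relNorm A P = span {g P}) : relNorm A s.prod = span {(s.map g).prod} := by
  induction s using Multiset.induction_on with
  | empty => simp [Ideal.one_eq_top]
  | cons P s ih =>
    rw [Multiset.prod_cons, map_mul, hs P (Multiset.mem_cons_self _ _),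
      ih (fun Q hQ => hs Q (Multiset.mem_cons_of_mem hQ)), Multiset.map_cons, Multiset.prod_cons,
      Ideal.span_singleton_mul_span_singleton]

theorem span_norm_eq [Module.Free A B] (T : A)
    (hmax : ∀ c : K, (span {T - algebraMap K A c}).IsMaximal)
    (hsurj : ∀ c : K, ∀ x : A, ∃ c' : K, x - algebraMap K A c' ∈ span {T - algebraMap K A c})
    (χ : Ideal B → B → K) (b : B) (hb : b ≠ 0)
    (hχ : ∀ P ∈ normalizedFactors (span {b} : Ideal B), ∀ x, x - algebraMap K B (χ P x) ∈ P) :
    (span {Algebra.norm A b} : Ideal A) =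
      span {((normalizedFactors (span {b} : Ideal B)).map
        (fun P => T - algebraMap K A (χ P (algebraMap A B T)))).prod} := by
  have hI : (span {b} : Ideal B) ≠ ⊥ := by simpa using hb
  rw [← Algebra.intNorm_eq_norm, ← relNorm_singleton]
  conv_lhs => rw [← Ideal.prod_normalizedFactors_eq_self hI]
  apply relNorm_multiset
  intro P hP
  have hP' := (Ideal.mem_normalizedFactors_iff hI).mp hP
  exact relNorm_prime T _ (hmax _) (hsurj _) P hP'.1 (ne_zero_of_mem_normalizedFactors hP)
    (hχ P hP _)

end Fermat.Agent.S19.WR
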