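import Mathlib

set_option autoImplicit false

/-!
# S19 / WR / Quot : the norm of `b mod I` for an ideal `I` of a Dedekind `K`-algebra all of whose prime factors
have residue field `K`.
-/

namespace Fermat.Agent.S19.WR

open Ideal UniqueFactorizationMonoid

/-- determinant in a short exact sequence whose kernel is scaled by `c`. -/
theorem det_of_surjective {K V V' : Type*} [Field K] [AddCommGroup V] [Module K V]
    [AddCommGroup V'] [Module K V'] [Module.Finite K V] (π : V →ₗ[K] V')
    (hπ : Function.Surjective π) (e : V →ₗ[K] V) (e' : V' →ₗ[K] V')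
    (hcomm : ∀ x, π (e x) = e' (π x)) (c : K) (hker : ∀ w, π w = 0 → e w = c • w) :
    LinearMap.det e = c ^ Module.finrank K (LinearMap.ker π) * LinearMap.det e' := by
  have he : LinearMap.ker π ≤ (LinearMap.ker π).comap e := by
    intro w hw
    rw [Submodule.mem_comap, LinearMap.mem_ker, hcomm, LinearMap.mem_ker.mp hw, map_zero]
  rw [LinearMap.det_eq_det_mul_det (LinearMap.ker π) e he]
  congr 1
  · have : (e.restrict he : LinearMap.ker π →ₗ[K] LinearMap.ker π) = c • LinearMap.id := by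
      ext ⟨w, hw⟩
      simp [LinearMap.restrict_apply, hker w (LinearMap.mem_ker.mp hw)]
    rw [this, LinearMap.det_smul, LinearMap.det_id, mul_one]
  · let φ := π.quotKerEquivOfSurjective hπ
    have : (LinearMap.ker π).mapQ (LinearMap.ker π) e he = φ.symm.toLinearMap ∘ₗ e' ∘ₗ φ.toLinearMap := by
      apply LinearMap.ext
      intro x
      obtain ⟨x, rfl⟩ := Submodule.Quotient.mk_surjective _ x
      apply φ.injective
      simp [φ, hcomm]
    rw [this]
    exact LinearMap.det_conj e' φ.symm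

variable {K B : Type*} [Field K] [CommRing B] [IsDedekindDomain B] [Algebra K B]

theorem sup_eq_of_not_mem {P J : Ideal B} (hP : P.IsPrime) (hP0 : P ≠ ⊥) (hJ : J ≠ ⊥) {a : B}
    (haJ : a ∈ J) (ha : a ∉ P * J) : Ideal.span {a} ⊔ P * J = J := by
  set X := Ideal.span {a} ⊔ P * J with hX
  have h1 : X ≤ J := sup_le ((Ideal.span_singleton_le_iff_mem _).mpr haJ) Ideal.mul_le_right
  have h2 : P * J ≤ X := le_sup_right
  obtain ⟨Y, hY⟩ := Ideal.dvd_iff_le.mpr h1
  obtain ⟨Z, hZ⟩ := Ideal.dvd_iff_le.mpr h2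
  have h3 : P = Y * Z := by
    have : J * P = J * (Y * Z) := by rw [mul_comm J P, hZ, hY, mul_assoc]
    exact mul_left_cancel₀ hJ this
  have h4 : Y ∣ P := ⟨Z, h3⟩
  rcases (Ideal.prime_of_isPrime hP0 hP).irreducible.dvd_iff.mp h4 with h5 | h5
  · rw [hY, Ideal.isUnit_iff.mp h5, Ideal.mul_top]
  · exfalso
    apply ha
    have h6 : P = Y := associated_iff_eq.mp h5
    have : a ∈ X := Ideal.mem_sup_left (Ideal.mem_span_singleton_self a)
    rwa [hY, ← h6, mul_comm] at this

theorem norm_quot_step (P J : Ideal B) (hP : P.IsPrime) (hP0 : P ≠ ⊥) (hJ : J ≠ ⊥) (χ : B → K)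
    (hχ : ∀ b, b - algebraMap K B (χ b) ∈ P) (hfin : Module.Finite K (B ⧸ J)) :
    Module.Finite K (B ⧸ (P * J)) ∧ ∀ b, Algebra.norm K (Ideal.Quotient.mk (P * J) b) =
      χ b * Algebra.norm K (Ideal.Quotient.mk J b) := by
  have hle : P * J ≤ J := Ideal.mul_le_right
  let π : (B ⧸ (P * J)) →ₗ[K] (B ⧸ J) := (Ideal.Quotient.factorₐ K hle).toLinearMap
  have hπmk : ∀ x : B, π (Ideal.Quotient.mk (P * J) x) = Ideal.Quotient.mk J x := fun x => rfl
  have hπ : Function.Surjective π := by
    intro y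
    obtain ⟨y, rfl⟩ := Ideal.Quotient.mk_surjective y
    exact ⟨Ideal.Quotient.mk _ y, rfl⟩
  have hsm : ∀ (c : K) (x : B), c • Ideal.Quotient.mk (P * J) x =
      Ideal.Quotient.mk (P * J) (algebraMap K B c * x) := by
    intro c x
    rw [Algebra.smul_def, map_mul]; rfl
  -- scalar action on the kernel
  have hact : ∀ (r j : B), j ∈ J → Ideal.Quotient.mk (P * J) (r * j) =
      χ r • Ideal.Quotient.mk (P * J) j := by
    intro r j hj
    rw [hsm, Ideal.Quotient.mk_eq_mk_iff_sub_mem, ← sub_mul]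
    exact Ideal.mul_mem_mul (hχ r) hj
  have hne : P * J ≠ J := by
    intro h
    have := (mul_eq_right₀ hJ).mp h
    exact hP.ne_top (by rwa [Ideal.one_eq_top] at this)
  obtain ⟨a, haJ, ha⟩ : ∃ a ∈ J, a ∉ P * J := by
    by_contra hcon
    push_neg at hcon
    exact hne (le_antisymm hle hcon)
  have hsup := sup_eq_of_not_mem hP hP0 hJ haJ ha
  have hker : LinearMap.ker π = K ∙ (Ideal.Quotient.mk (P * J) a) := by
    apply le_antisymm
    · intro w hw
      obtain ⟨j, rfl⟩ := Ideal.Quotient.mk_surjective w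
      rw [LinearMap.mem_ker, hπmk, Ideal.Quotient.eq_zero_iff_mem, ← hsup] at hw
      obtain ⟨y, hy, z, hz, rfl⟩ := Submodule.mem_sup.mp hw
      obtain ⟨r, rfl⟩ := Ideal.mem_span_singleton'.mp hy
      rw [map_add, Ideal.Quotient.eq_zero_iff_mem.mpr hz, add_zero, hact r a haJ]
      exact Submodule.smul_mem _ _ (Submodule.mem_span_singleton_self _)
    · rw [Submodule.span_singleton_le_iff_mem, LinearMap.mem_ker, hπmk,
        Ideal.Quotient.eq_zero_iff_mem]
      exact haJ
  have ha0 : Ideal.Quotient.mk (P * J) a ≠ 0 := by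
    rwa [Ne, Ideal.Quotient.eq_zero_iff_mem]
  have hrank : Module.finrank K (LinearMap.ker π) = 1 := by
    rw [hker]; exact finrank_span_singleton ha0
  have hf1 : Module.Finite K (LinearMap.ker π) := by
    rw [hker]; infer_instance
  have hf2 : Module.Finite K ((B ⧸ (P * J)) ⧸ LinearMap.ker π) :=
    Module.Finite.equiv (π.quotKerEquivOfSurjective hπ).symm
  have hf : Module.Finite K (B ⧸ (P * J)) := Module.Finite.of_submodule_quotient (LinearMap.ker π)
  refine ⟨hf, fun b => ?_⟩
  rw [Algebra.norm_apply, Algebra.norm_apply,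
    det_of_surjective π hπ _ (Algebra.lmul K (B ⧸ J) (Ideal.Quotient.mk J b)) ?_ (χ b) ?_, hrank,
    pow_one]
  · intro x
    obtain ⟨x, rfl⟩ := Ideal.Quotient.mk_surjective x
    simp only [Algebra.coe_lmul_eq_mul, LinearMap.mul_apply', ← map_mul, hπmk]
  · intro w hw
    obtain ⟨j, rfl⟩ := Ideal.Quotient.mk_surjective w
    rw [hπmk, Ideal.Quotient.eq_zero_iff_mem] at hw
    simp only [Algebra.coe_lmul_eq_mul, LinearMap.mul_apply', ← map_mul]
    exact hact b j hw

/-- **Lemma A'**. -/
theorem norm_quot (χ : Ideal B → B → K) (I : Ideal B) (hI : I ≠ ⊥)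
    (hχ : ∀ P ∈ normalizedFactors I, ∀ b : B, b - algebraMap K B (χ P b) ∈ P) :
    Module.Finite K (B ⧸ I) ∧ ∀ b : B, Algebra.norm K (Ideal.Quotient.mk I b) =
      ((normalizedFactors I).map (fun P => χ P b)).prod := by
  induction I using UniqueFactorizationMonoid.induction_on_prime with
  | h₁ => exact absurd rfl hI
  | h₂ x hx =>
    have hx' : x = ⊤ := Ideal.isUnit_iff.mp hx
    subst hx'
    have : Subsingleton (B ⧸ (⊤ : Ideal B)) := Ideal.Quotient.subsingleton_iff.mpr rfl
    refine ⟨inferInstance, fun b => ?_⟩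
    have h0 : normalizedFactors (⊤ : Ideal B) = 0 := by
      rw [← Ideal.one_eq_top]; exact normalizedFactors_one
    rw [h0, Multiset.map_zero, Multiset.prod_zero, Algebra.norm_apply]
    exact LinearMap.det_eq_one_of_subsingleton _
  | h₃ J P hJ hP ih =>
    have hJ0 : J ≠ ⊥ := hJ
    have hP0 : P ≠ ⊥ := hP.ne_zero
    have hPp : P.IsPrime := Ideal.isPrime_of_prime hP
    have hfac : normalizedFactors (P * J) = P ::ₘ normalizedFactors J := by
      rw [normalizedFactors_mul hP0 hJ0, normalizedFactors_irreducible hP.irreducible,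
        normalize_eq, Multiset.singleton_add]
    obtain ⟨hfin, hn⟩ := ih hJ0 (fun Q hQ b => hχ Q (by rw [hfac]; exact Multiset.mem_cons_of_mem hQ) b)
    obtain ⟨h1, h2⟩ := norm_quot_step P J hPp hP0 hJ0 (χ P)
      (hχ P (by rw [hfac]; exact Multiset.mem_cons_self _ _)) hfin
    refine ⟨h1, fun b => ?_⟩
    rw [h2, hn, hfac, Multiset.map_cons, Multiset.prod_cons]

end Fermat.Agent.S19.WR
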