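import Fermat.Agent.DIV.Val
import Fermat.Agent.S19.WR.Quot
import Fermat.Agent.S19.WR.Eval
import Fermat.Agent.S19.WR.Fac
import Fermat.Agent.S19.WR.Conv

set_option autoImplicit false

/-!
# S19 / WR, part (A): order and value of the norm, general Dedekind setting
-/

namespace Fermat.Agent.S19.WR

open AlgebraicCurve IsDedekindDomain Fermat.Agent.S24 Fermat.Agent UniqueFactorizationMonoid

variable {K F : Type*} [Field K] [Field F] [Algebra K F]

variable {A E B : Type*} [CommRing A] [IsDedekindDomain A] [Field E] [Algebra A E]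
  [IsFractionRing A E] [CommRing B] [IsDedekindDomain B] [Algebra A B] [Algebra B F]
  [IsFractionRing B F] [Algebra E F] [Algebra A F] [IsScalarTower A B F] [IsScalarTower A E F]
  [Module.Finite A B] [Algebra K A] [Algebra K B] [IsScalarTower K A B] [IsScalarTower K B F]
  [IsAlgClosed K] [Module.IsTorsionFree A B]

theorem emult_span (a x : A) :
    emultiplicity a x = emultiplicity (Ideal.span {a}) (Ideal.span {x}) := by
  rw [emultiplicity_eq_emultiplicity_iff]
  intro n
  rw [Ideal.span_singleton_pow, Ideal.dvd_iff_le, Ideal.span_singleton_le_span_singleton]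

theorem emult_relNorm_prime [PerfectField (FractionRing A)] (a : A) (ha : Prime a)
    (hsurj : ∀ x : A, ∃ c : K, x - algebraMap K A c ∈ Ideal.span {a})
    (P : Ideal B) (hP : P.IsPrime) (hP0 : P ≠ ⊥) [Decidable (algebraMap A B a ∈ P)] :
    emultiplicity (Ideal.span {a}) (Ideal.relNorm A P) =
      if algebraMap A B a ∈ P then 1 else 0 := by
  have hp0 : (Ideal.span {a} : Ideal A) ≠ ⊥ := by simpa using ha.ne_zero
  have hpp : (Ideal.span {a} : Ideal A).IsPrime := (Ideal.span_singleton_prime ha.ne_zero).mpr ha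
  have hpm : (Ideal.span {a} : Ideal A).IsMaximal := hpp.isMaximal hp0
  have hprime : Prime (Ideal.span {a} : Ideal A) := Ideal.prime_of_isPrime hp0 hpp
  split_ifs with hmem
  · have h1 := relNorm_prime (K := K) a 0 (by simpa using hpm) (by simpa using hsurj) P hP hP0
      (by simpa using hmem)
    rw [map_zero, sub_zero] at h1
    rw [h1]
    simpa using emultiplicity_pow_self_of_prime hprime 1
  · rw [emultiplicity_eq_zero]
    intro hdvd
    have : P.LiesOver (P.under A) := ⟨rfl⟩
    have hq : (P.under A).IsPrime := Ideal.IsPrime.under A P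
    obtain ⟨k, hk⟩ := Ideal.exists_relNorm_eq_pow_of_isPrime P (P.under A)
    rw [hk] at hdvd
    have h2 := hprime.dvd_of_dvd_pow hdvd
    rw [Ideal.dvd_iff_le] at h2
    have hq0 : P.under A ≠ ⊥ := by
      intro h0
      have : P.LiesOver (⊥ : Ideal A) := ⟨h0.symm⟩
      exact hP0 (Ideal.eq_bot_of_liesOver_bot A P)
    have hqm : (P.under A).IsMaximal := hq.isMaximal hq0
    have h3 := hqm.eq_of_le hpp.ne_top h2
    apply hmem
    have h4 : a ∈ P.under A := h3 ▸ Ideal.mem_span_singleton_self a
    exact h4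

theorem emult_relNorm_multiset [PerfectField (FractionRing A)] (a : A) (ha : Prime a)
    (hsurj : ∀ x : A, ∃ c : K, x - algebraMap K A c ∈ Ideal.span {a})
    [DecidablePred fun P : Ideal B => algebraMap A B a ∈ P]
    (m : Multiset (Ideal B)) (hm : ∀ P ∈ m, P.IsPrime ∧ P ≠ ⊥) :
    emultiplicity (Ideal.span {a}) (Ideal.relNorm A m.prod) =
      ((m.map (fun P => if algebraMap A B a ∈ P then 1 else 0)).sum : ℕ) := by
  have hp0 : (Ideal.span {a} : Ideal A) ≠ ⊥ := by simpa using ha.ne_zero
  have hpp : (Ideal.span {a} : Ideal A).IsPrime := (Ideal.span_singleton_prime ha.ne_zero).mpr ha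
  have hprime : Prime (Ideal.span {a} : Ideal A) := Ideal.prime_of_isPrime hp0 hpp
  induction m using Multiset.induction_on with
  | empty =>
    simp only [Multiset.prod_zero, map_one, Multiset.map_zero, Multiset.sum_zero, Nat.cast_zero]
    exact emultiplicity_of_one_right hprime.not_isUnit
  | cons P m ih =>
    rw [Multiset.prod_cons, map_mul, emultiplicity_mul hprime,
      ih (fun Q hQ => hm Q (Multiset.mem_cons_of_mem hQ)),
      emult_relNorm_prime (K := K) a ha hsurj P (hm P (Multiset.mem_cons_self _ _)).1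
        (hm P (Multiset.mem_cons_self _ _)).2, Multiset.map_cons, Multiset.sum_cons]
    split_ifs <;> simp

/-- (G1) the order of the norm. -/
theorem ord_intNorm [CharZero K] (a : A) (ha : Prime a)
    (hsurj : ∀ x : A, ∃ c : K, x - algebraMap K A c ∈ Ideal.span {a})
    (s : Finset (Place K F))
    (hs : ∀ v, v ∈ s ↔ ∃ w : HeightOneSpectrum B, algebraMap A B a ∈ w.asIdeal ∧
        Place.ofHeightOneSpectrum (K := K) w = v)
    (b : B) (hb : b ≠ 0) :
    (multiplicity a (Algebra.intNorm A B b) : ℤ) = ∑ v ∈ s, v.ord (algebraMap B F b) := by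
  classical
  have : CharZero A := charZero_of_injective_algebraMap (algebraMap K A).injective
  have : CharZero (FractionRing A) :=
    charZero_of_injective_algebraMap (IsFractionRing.injective A (FractionRing A))
  have hI : (Ideal.span {b} : Ideal B) ≠ ⊥ := by simpa using hb
  set fs := normalizedFactors (Ideal.span {b} : Ideal B) with hfs
  have hfsP : ∀ P ∈ fs, P.IsPrime ∧ P ≠ ⊥ := fun P hP =>
    ⟨((Ideal.mem_normalizedFactors_iff hI).mp hP).1, ne_zero_of_mem_normalizedFactors hP⟩
  have h1 : emultiplicity a (Algebra.intNorm A B b) =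
      ((fs.map (fun P => if algebraMap A B a ∈ P then 1 else 0)).sum : ℕ) := by
    rw [emult_span, ← Ideal.relNorm_singleton, ← emult_relNorm_multiset (K := K) a ha hsurj fs hfsP,
      hfs, Ideal.prod_normalizedFactors_eq_self hI]
  rw [multiplicity_eq_of_emultiplicity_eq_some h1]
  have hinj : Function.Injective (HeightOneSpectrum.asIdeal (R := B)) := by
    intro w w' h; exact HeightOneSpectrum.ext h
  have hpl : Function.Injective (Place.ofHeightOneSpectrum (K := K) (F := F) (R := B)) :=
    ofHeightOneSpectrum_injective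
  set W' := s.preimage (Place.ofHeightOneSpectrum (K := K) (F := F) (R := B)) hpl.injOn with hW'
  have hmemW' : ∀ w, w ∈ W' ↔ algebraMap A B a ∈ w.asIdeal := by
    intro w
    rw [hW', Finset.mem_preimage, hs]
    constructor
    · rintro ⟨w', hw', he⟩
      rwa [← hpl he]
    · intro hw
      exact ⟨w, hw, rfl⟩
  have hsW : s = W'.image (Place.ofHeightOneSpectrum (K := K) (F := F) (R := B)) := by
    ext v
    rw [Finset.mem_image, hs]
    constructor
    · rintro ⟨w, hw, rfl⟩
      exact ⟨w, (hmemW' w).mpr hw, rfl⟩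
    · rintro ⟨w, hw, rfl⟩
      exact ⟨w, (hmemW' w).mp hw, rfl⟩
  rw [hsW, Finset.sum_image (fun x _ y _ hxy => hpl hxy)]
  simp only [ord_eq_count (K := K) (F := F) b hb]
  rw [Finset.sum_multiset_map_count,
    ← Finset.sum_preimage (HeightOneSpectrum.asIdeal (R := B)) fs.toFinset hinj.injOn
      (fun P => fs.count P • (if algebraMap A B a ∈ P then 1 else 0))]
  · simp only [smul_eq_mul, mul_ite, mul_one, mul_zero]
    rw [← Finset.sum_filter]
    push_cast
    refine Finset.sum_subset ?_ ?_
    · intro w hw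
      exact (hmemW' w).mpr (Finset.mem_filter.mp hw).2
    · intro w hw hw'
      have h2 : w.asIdeal ∉ fs := by
        intro h3
        apply hw'
        rw [Finset.mem_filter, Finset.mem_preimage, Multiset.mem_toFinset]
        exact ⟨h3, (hmemW' w).mp hw⟩
      rw [Multiset.count_eq_zero.mpr h2, Nat.cast_zero]
  · intro P hP hr
    exfalso
    apply hr
    have hP' := hfsP P (Multiset.mem_toFinset.mp hP)
    exact ⟨⟨P, hP'.1, hP'.2⟩, rfl⟩

section chiP

variable (h : IsFF1 K F)

open Classical in
/-- the value of `x` at the prime `P`. -/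
noncomputable def chiP (P : Ideal B) (x : B) : K :=
  if hP : P.IsPrime ∧ P ≠ ⊥ then
    DIV.valAt h (Place.ofHeightOneSpectrum (K := K) (F := F) ⟨P, hP.1, hP.2⟩) (algebraMap B F x)
  else 0

omit [IsDedekindDomain A] [Algebra A B] [Algebra A F] [IsScalarTower A B F] [Module.Finite A B]
  [Algebra K A] [IsScalarTower K A B] [Module.IsTorsionFree A B] [CommRing A] in
theorem chiP_asIdeal (w : HeightOneSpectrum B) (x : B) :
    chiP h w.asIdeal x =
      DIV.valAt h (Place.ofHeightOneSpectrum (K := K) w) (algebraMap B F x) := by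
  unfold chiP
  rw [dif_pos ⟨w.isPrime, w.ne_bot⟩]

omit [IsDedekindDomain A] [Algebra A B] [Algebra A F] [IsScalarTower A B F] [Module.Finite A B]
  [Algebra K A] [IsScalarTower K A B] [Module.IsTorsionFree A B] [CommRing A] in
theorem sub_chiP_mem (P : Ideal B) (hP : P.IsPrime) (hP0 : P ≠ ⊥) (x : B) :
    x - algebraMap K B (chiP h P x) ∈ P := by
  let w : HeightOneSpectrum B := ⟨P, hP, hP0⟩
  have h1 : chiP h P x =
      DIV.valAt h (Place.ofHeightOneSpectrum (K := K) w) (algebraMap B F x) :=
    chiP_asIdeal h w x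
  by_cases h0 : x - algebraMap K B (chiP h P x) = 0
  · rw [h0]; exact zero_mem _
  have h2 := (ord_ofHeightOneSpectrum_pos_iff (K := K) (F := F) w h0)
  apply h2.mp
  rw [map_sub, ← IsScalarTower.algebraMap_apply K B F, h1]
  apply DIV.ord_sub_valAt_pos h _ (algebraMap_mem_ofHeightOneSpectrum w x)
  intro h3
  apply h0
  apply IsFractionRing.injective B F
  rw [map_sub, ← IsScalarTower.algebraMap_apply K B F, h1, map_zero, sub_eq_zero]
  exact h3

end chiP

omit [IsDedekindDomain A] [IsAlgClosed K] in
/-- the evaluation `A → A/(a) = K`. -/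
theorem exists_ev (a : A) (ha : Prime a)
    (hsurj : ∀ x : A, ∃ c : K, x - algebraMap K A c ∈ Ideal.span {a}) :
    ∃ ev : A →ₐ[K] K, (∀ x : A, x - algebraMap K A (ev x) ∈ Ideal.span {a}) ∧ ev a = 0 := by
  have hne : (Ideal.span {a} : Ideal A) ≠ ⊤ := by
    rw [Ne, Ideal.span_singleton_eq_top]
    exact ha.not_isUnit
  have : Nontrivial (A ⧸ (Ideal.span {a} : Ideal A)) := Ideal.Quotient.nontrivial_iff.mpr hne
  have hbij : Function.Bijective (Algebra.ofId K (A ⧸ (Ideal.span {a} : Ideal A))) := by
    constructor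
    · exact (algebraMap K (A ⧸ (Ideal.span {a} : Ideal A))).injective
    · intro x
      obtain ⟨x, rfl⟩ := Ideal.Quotient.mk_surjective x
      obtain ⟨c, hc⟩ := hsurj x
      refine ⟨c, ?_⟩
      show algebraMap K (A ⧸ (Ideal.span {a} : Ideal A)) c = _
      rw [IsScalarTower.algebraMap_apply K A (A ⧸ (Ideal.span {a} : Ideal A))]
      exact ((Ideal.Quotient.mk_eq_mk_iff_sub_mem _ _).mpr hc).symm
  let e := AlgEquiv.ofBijective _ hbij
  let ev : A →ₐ[K] K := e.symm.toAlgHom.comp (Ideal.Quotient.mkₐ K (Ideal.span {a}))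
  have hev : ∀ x : A, Ideal.Quotient.mk (Ideal.span {a}) (algebraMap K A (ev x)) =
      Ideal.Quotient.mk (Ideal.span {a}) x := by
    intro x
    have h1 : e (ev x) = Ideal.Quotient.mk (Ideal.span {a}) x := e.apply_symm_apply _
    rw [← h1]
    rfl
  refine ⟨ev, fun x => ?_, ?_⟩
  · exact (Ideal.Quotient.mk_eq_mk_iff_sub_mem _ _).mp (hev x).symm
  · have h1 : Ideal.Quotient.mkₐ K (Ideal.span {a}) a = 0 :=
      Ideal.Quotient.eq_zero_iff_mem.mpr (Ideal.mem_span_singleton_self a)
    show e.symm (Ideal.Quotient.mkₐ K (Ideal.span {a}) a) = 0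
    rw [h1, map_zero]

/-- (G2) the value of the norm. -/
theorem val_intNorm [CharZero K] [IsPrincipalIdealRing A] (h : IsFF1 K F) (a : A) (ha : Prime a)
    (hsurj : ∀ x : A, ∃ c : K, x - algebraMap K A c ∈ Ideal.span {a})
    (s : Finset (Place K F))
    (hs : ∀ v, v ∈ s ↔ ∃ w : HeightOneSpectrum B, algebraMap A B a ∈ w.asIdeal ∧
        Place.ofHeightOneSpectrum (K := K) w = v)
    (b : B) :
    Algebra.intNorm A B b - algebraMap K A
      (∏ v ∈ s, DIV.valAt h v (algebraMap B F b) ^ (v.ord (algebraMap A F a)).toNat) ∈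
      Ideal.span {a} := by
  classical
  obtain ⟨ev, hker, heva⟩ := exists_ev (K := K) a ha hsurj
  have hfree : Module.Free A B := inferInstance
  have haB : algebraMap A B a ≠ 0 := by
    simpa using (FaithfulSMul.algebraMap_injective A B).ne ha.ne_zero
  have hI : (Ideal.span {algebraMap A B a} : Ideal B) ≠ ⊥ := by simpa using haB
  have h1 := norm_eval (Module.Free.chooseBasis A B) ev a hker heva b
  have h2 := (norm_quot (chiP h) (Ideal.span {algebraMap A B a}) hI (fun P hP x =>
    sub_chiP_mem h P ((Ideal.mem_normalizedFactors_iff hI).mp hP).1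
      (ne_zero_of_mem_normalizedFactors hP) x)).2 b
  have h3 := prod_factors_eq (K := K) (F := F) (algebraMap A B a) haB (fun P => chiP h P b)
    (fun v => DIV.valAt h v (algebraMap B F b)) (fun w => chiP_asIdeal h w b)
  have h4 : ev (Algebra.intNorm A B b) =
      ∏ v ∈ s, DIV.valAt h v (algebraMap B F b) ^ (v.ord (algebraMap A F a)).toNat := by
    rw [Algebra.intNorm_eq_norm, h1, h2, h3, finprod_eq_prod_of_mulSupport_subset (s := s)]
    · refine Finset.prod_congr rfl fun v hv => ?_
      obtain ⟨w, -, hw⟩ := (hs v).mp hv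
      rw [if_pos ⟨w, hw⟩, ← IsScalarTower.algebraMap_apply]
    · intro v hv
      simp only [Function.mem_mulSupport] at hv
      rw [Finset.mem_coe, hs]
      by_contra hn
      apply hv
      split_ifs with hw
      · obtain ⟨w, rfl⟩ := hw
        have h5 : algebraMap A B a ∉ w.asIdeal := fun h6 => hn ⟨w, h6, rfl⟩
        have h6 := (ord_ofHeightOneSpectrum_pos_iff (K := K) (F := F) w haB).not.mpr h5
        have h7 : ((Place.ofHeightOneSpectrum (K := K) w).ord
            (algebraMap B F (algebraMap A B a))).toNat = 0 := by omega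
        rw [h7, pow_zero]
      · rfl
  rw [← h4]
  exact hker _

end Fermat.Agent.S19.WR
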