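import Fermat.Agent.S19.WR.Ded
import Fermat.Agent.S37.HI.Abs

set_option autoImplicit false
set_option linter.unusedSectionVars false

/-!
# S19 / WR / NormVal : the value of the norm at a place, for a finite extension of function fields
-/

namespace Fermat.Agent.S19.WR

open AlgebraicCurve IsDedekindDomain Fermat.Agent.S24 Fermat.Agent

section key

variable {K F F' : Type*} [Field K] [IsAlgClosed K] [CharZero K] [Field F] [Field F'] [Algebra K F]
  [Algebra K F'] [Algebra F F'] [IsScalarTower K F F'] [FiniteDimensional F F']
  [Algebra.IsIntegral F F'] (v : Place K F) {S : Type*} [CommRing S] [IsDedekindDomain S]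
  [Algebra v.toValuationSubring S] [Algebra S F'] [Algebra v.toValuationSubring F']
  [IsScalarTower v.toValuationSubring S F'] [IsScalarTower v.toValuationSubring F F']
  [IsIntegralClosure S v.toValuationSubring F'] [IsFractionRing S F']
  [Module.Finite v.toValuationSubring S] [Module.IsTorsionFree v.toValuationSubring S]
  [Algebra K S] [IsScalarTower K S F'] [IsScalarTower K v.toValuationSubring S]

variable (S) in
include S in
theorem key_val [HasPrincipalDivisors K F'] (hF : IsFF1 K F) (hF' : IsFF1 K F') {g : F'}
    (hg : ∀ w ∈ v.fiber F', 0 ≤ w.ord g) :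
    DIV.valAt hF v (Algebra.norm F g) =
      ∏ w ∈ v.fiber F', DIV.valAt hF' w g ^ (w.ramificationIndex F) := by
  classical
  -- `g` lies in `S`
  obtain ⟨s, rfl⟩ := HeightOneSpectrum.mem_integers_of_valuation_le_one (R := S) F' g (fun P => by
    have h1 : Place.ofHeightOneSpectrum (K := K) (F := F') P ∈ v.fiber F' :=
      Place.mem_fiber.mpr ((S37.HI.key_fiber v S _).mpr ⟨P, rfl⟩)
    have h2 := mem_of_ord_nonneg _ (hg _ h1)
    rwa [Place.ofHeightOneSpectrum_toValuationSubring, Valuation.mem_valuationSubring_iff] at h2)
  obtain ⟨π, hπ⟩ := IsDiscreteValuationRing.exists_irreducible v.toValuationSubring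
  have hsurj : ∀ x : v.toValuationSubring,
      ∃ c : K, x - algebraMap K v.toValuationSubring c ∈ Ideal.span {π} := by
    intro x
    obtain ⟨c, hc⟩ := S37.HI.norm_hsurj v hF x
    exact ⟨c, by rwa [← hπ.maximalIdeal_eq]⟩
  have hcoe : algebraMap v.toValuationSubring F' π = algebraMap F F' (π : F) :=
    IsScalarTower.algebraMap_apply v.toValuationSubring F F' π
  have hord : ∀ w : Place K F', w.restrict F = v →
      w.ord (algebraMap v.toValuationSubring F' π) = (w.ramificationIndex F : ℤ) := by
    intro w hw
    rw [hcoe, w.ord_restrict, hw, v.ord_coe_irreducible hπ, mul_one]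
  have hπS : algebraMap v.toValuationSubring S π ≠ 0 := by
    intro h0
    have h1 : algebraMap v.toValuationSubring F' π = 0 := by
      rw [IsScalarTower.algebraMap_apply v.toValuationSubring S F', h0, map_zero]
    rw [hcoe, map_eq_zero] at h1
    exact hπ.ne_zero (Subtype.ext h1)
  have hs : ∀ w, w ∈ v.fiber F' ↔ ∃ P : HeightOneSpectrum S,
      algebraMap v.toValuationSubring S π ∈ P.asIdeal ∧
        Place.ofHeightOneSpectrum (K := K) P = w := by
    intro w
    rw [Place.mem_fiber, S37.HI.key_fiber v S w]
    constructor
    · rintro ⟨P, h⟩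
      refine ⟨P, ?_, h⟩
      rw [← ord_ofHeightOneSpectrum_pos_iff (K := K) (F := F') P hπS,
        ← IsScalarTower.algebraMap_apply v.toValuationSubring S F', h,
        hord w ((S37.HI.key_fiber v S w).mpr ⟨P, h⟩)]
      exact_mod_cast w.ramificationIndex_pos (F := F)
    · rintro ⟨P, -, h⟩
      exact ⟨P, h⟩
  have h1 := val_intNorm (K := K) (F := F') (A := v.toValuationSubring) (B := S) hF' π hπ.prime
    hsurj (v.fiber F') hs s
  have h2 : algebraMap v.toValuationSubring F (Algebra.intNorm v.toValuationSubring S s) =
      Algebra.norm F (algebraMap S F' s) := Algebra.algebraMap_intNorm s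
  have h3 : ∏ w ∈ v.fiber F', DIV.valAt hF' w (algebraMap S F' s) ^
      (w.ord (algebraMap v.toValuationSubring F' π)).toNat =
      ∏ w ∈ v.fiber F', DIV.valAt hF' w (algebraMap S F' s) ^ (w.ramificationIndex F) := by
    refine Finset.prod_congr rfl fun w hw => ?_
    rw [hord w (Place.mem_fiber.mp hw), Int.toNat_natCast]
  rw [h3, ← hπ.maximalIdeal_eq, ← DIV.evp_eq_zero_iff hF v, map_sub, DIV.evp_algebraMap,
    sub_eq_zero] at h1
  rw [← h1, ← h2]
  exact DIV.valAt_of_mem hF v (Subtype.mem _)

end key

variable {K F F' : Type*} [Field K] [IsAlgClosed K] [CharZero K] [Field F] [Field F'] [Algebra K F]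
  [Algebra K F'] [Algebra F F'] [IsScalarTower K F F'] [FiniteDimensional F F']
  [Algebra.IsIntegral F F']

/-- **the value of the norm**. -/
theorem valAt_norm [HasPrincipalDivisors K F'] (hF : IsFF1 K F) (hF' : IsFF1 K F') (v : Place K F)
    {g : F'} (hg : ∀ w ∈ v.fiber F', 0 ≤ w.ord g) :
    DIV.valAt hF v (Algebra.norm F g) =
      ∏ w ∈ v.fiber F', DIV.valAt hF' w g ^ (w.ramificationIndex F) := by
  have : CharZero F := charZero_of_injective_algebraMap (algebraMap K F).injective
  let _ : Algebra v.toValuationSubring F' :=
    ((algebraMap F F').comp (algebraMap v.toValuationSubring F)).toAlgebra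
  have : IsScalarTower v.toValuationSubring F F' := IsScalarTower.of_algebraMap_eq fun _ => rfl
  have : IsScalarTower K v.toValuationSubring F' := IsScalarTower.of_algebraMap_eq fun a => by
    rw [IsScalarTower.algebraMap_apply K F F']
    rfl
  have : Module.IsTorsionFree v.toValuationSubring F' := by
    rw [Module.isTorsionFree_iff_algebraMap_injective]
    exact (algebraMap F F').injective.comp Subtype.val_injective
  have : IsDedekindDomain (integralClosure v.toValuationSubring F') :=
    integralClosure.isDedekindDomain v.toValuationSubring F F'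
  have : Module.Finite v.toValuationSubring (integralClosure v.toValuationSubring F') :=
    IsIntegralClosure.finite v.toValuationSubring F F' _
  have : IsFractionRing (integralClosure v.toValuationSubring F') F' :=
    integralClosure.isFractionRing_of_finite_extension F F'
  exact key_val v (integralClosure v.toValuationSubring F') hF hF' hg

/-- the value of a function of `F` at a place of `F'`. -/
theorem valAt_algebraMap_restrict (hF : IsFF1 K F) (hF' : IsFF1 K F') (w : Place K F') (f : F) :
    DIV.valAt hF' w (algebraMap F F' f) = DIV.valAt hF (w.restrict F) f := by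
  by_cases hf : f ∈ (w.restrict F).toValuationSubring
  · by_cases hc : f = algebraMap K F (DIV.valAt hF (w.restrict F) f)
    · conv_lhs => rw [hc, ← IsScalarTower.algebraMap_apply, DIV.valAt_algebraMap]
    · have h1 := DIV.ord_sub_valAt_pos hF (w.restrict F) hf hc
      have h2 : 0 < w.ord (algebraMap F F' f -
          algebraMap K F' (DIV.valAt hF (w.restrict F) f)) := by
        rw [IsScalarTower.algebraMap_apply K F F', ← map_sub, w.ord_restrict]
        have := w.ramificationIndex_pos (F := F)
        positivity
      exact (DIV.valAt_eq_of_ord_pos hF' w h2).2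
  · have hf' : algebraMap F F' f ∉ w.toValuationSubring := by
      rwa [← Place.mem_restrict_iff]
    unfold DIV.valAt
    rw [dif_neg hf, dif_neg hf']

end Fermat.Agent.S19.WR
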