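import Fermat.Agent.S19.WR.Main
import Fermat.Agent.S19.WR.NormVal
import Fermat.Agent.S19.Pair.Core

set_option autoImplicit false
set_option linter.unusedSectionVars false

/-!
# S19 / WR / NormDiv : projection formulas for `evD`, and the adjunction `W(g, α f) = 1`
-/

namespace Fermat.Agent.S19.WR

open AlgebraicCurve Fermat.Agent.S24 Fermat.Agent Fermat.Agent.S19 Fermat.Agent.S19.Pair

variable {K F F' : Type} [Field K] [IsAlgClosed K] [CharZero K] [Field F] [Field F'] [Algebra K F]
  [Algebra K F'] [Algebra F F'] [IsScalarTower K F F'] [FiniteDimensional F F']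
  [Algebra.IsIntegral F F']

/-- `(Nm g)(D) = g(π^* D)`. -/
theorem evD_norm [HasPrincipalDivisors K F'] (hF : IsFF1 K F) (hF' : IsFF1 K F')
    (D : Divisor K F) {g : F'}
    (hg : ∀ w : Place K F', D (w.restrict F) ≠ 0 → 0 ≤ w.ord g) :
    evD hF D (Algebra.norm F g) = evD hF' (Divisor.pullback F' D) g := by
  classical
  unfold evD Finsupp.prod
  have hmaps : ∀ w ∈ (Divisor.pullback F' D).support, w.restrict F ∈ D.support := by
    intro w hw
    rw [Finsupp.mem_support_iff, Divisor.pullback_apply] at hw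
    rw [Finsupp.mem_support_iff]
    exact right_ne_zero_of_mul hw
  rw [← Finset.prod_fiberwise_of_maps_to hmaps]
  refine Finset.prod_congr rfl fun v hv => ?_
  have hv' : D v ≠ 0 := Finsupp.mem_support_iff.mp hv
  have hfib : (Divisor.pullback F' D).support.filter (fun w => w.restrict F = v) = v.fiber F' := by
    ext w
    rw [Finset.mem_filter, Place.mem_fiber, Finsupp.mem_support_iff, Divisor.pullback_apply]
    constructor
    · exact fun h => h.2
    · intro h
      refine ⟨?_, h⟩
      rw [h]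
      exact mul_ne_zero (by exact_mod_cast (w.ramificationIndex_pos (F := F)).ne') hv'
  rw [hfib]
  beta_reduce
  rw [valAt_norm hF hF' v (fun w hw => hg w (by rwa [Place.mem_fiber.mp hw])),
    ← Finset.prod_zpow]
  refine Finset.prod_congr rfl fun w hw => ?_
  rw [Divisor.pullback_apply, Place.mem_fiber.mp hw, zpow_mul, zpow_natCast]

theorem pushforward_apply' (hF : IsFF1 K F) (hF' : IsFF1 K F') [DecidableEq (Place K F)]
    (D' : Divisor K F') (v : Place K F) :
    Divisor.pushforward F D' v = ∑ w ∈ D'.support with w.restrict F = v, D' w := by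
  rw [Divisor.pushforward_apply, Finset.sum_filter]
  refine Finset.sum_congr rfl fun w _ => ?_
  rw [S37.HI.inertiaDeg_eq_one hF hF' w, Nat.cast_one, mul_one]

/-- `(f ∘ π)(D') = f(π_* D')`. -/
theorem evD_algebraMap (hF : IsFF1 K F) (hF' : IsFF1 K F') (D' : Divisor K F') {f : F}
    (hf0 : f ≠ 0) (hf : ∀ w : Place K F', D' w ≠ 0 → (w.restrict F).ord f = 0) :
    evD hF' D' (algebraMap F F' f) = evD hF (Divisor.pushforward F D') f := by
  classical
  unfold evD Finsupp.prod
  simp only [valAt_algebraMap_restrict hF hF']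
  set T := D'.support.image (fun w => w.restrict F) with hT
  have hsub : (Divisor.pushforward F D').support ⊆ T := by
    intro v hv
    rw [Finsupp.mem_support_iff, pushforward_apply' hF hF'] at hv
    obtain ⟨w, hw, -⟩ := Finset.exists_ne_zero_of_sum_ne_zero hv
    rw [Finset.mem_filter] at hw
    exact Finset.mem_image.mpr ⟨w, hw.1, hw.2⟩
  rw [Finset.prod_subset hsub (fun v _ hv => by
    rw [Finsupp.notMem_support_iff.mp hv, zpow_zero]),
    ← Finset.prod_fiberwise_of_maps_to (t := T) (g := fun w => w.restrict F)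
      (fun w hw => Finset.mem_image_of_mem _ hw)]
  refine Finset.prod_congr rfl fun v hv => ?_
  obtain ⟨w₀, hw₀, rfl⟩ := Finset.mem_image.mp hv
  have hx : DIV.valAt hF (w₀.restrict F) f ≠ 0 :=
    valAt_ne_zero_of_ord_eq_zero hF _ hf0 (hf w₀ (Finsupp.mem_support_iff.mp hw₀))
  rw [pushforward_apply' hF hF', ← prod_zpow_eq_zpow_sum _ _ hx]
  refine Finset.prod_congr rfl fun w hw => ?_
  rw [(Finset.mem_filter.mp hw).2]

/-- **adjunction**: if `Nm g` is an `m`-th power then `g((div α f)/m) = (α f)((div g)/m)`. -/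
theorem adj [HasPrincipalDivisors K F'] (hF : IsFF1 K F) (hF' : IsFF1 K F') {m : ℕ} (hm : m ≠ 0)
    {g : F'} {f h : F} {Dg : Divisor K F'} {Df : Divisor K F}
    (hg : IsDiv g ((m : ℤ) • Dg)) (hf : IsDiv f ((m : ℤ) • Df))
    (hN : Algebra.norm F g = h ^ m) (hdisj : ∀ w : Place K F', Dg w = 0 ∨ Df (w.restrict F) = 0) :
    evD hF' (Divisor.pullback F' Df) g = evD hF' Dg (algebraMap F F' f) := by
  classical
  have hmZ : (m : ℤ) ≠ 0 := by exact_mod_cast hm
  have hh0 : h ≠ 0 := by
    rintro rfl
    rw [zero_pow hm, Algebra.norm_eq_zero_iff] at hN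
    exact hg.1 hN
  -- `div h = π_* Dg`
  have hdivh : IsDiv h (Divisor.pushforward F Dg) := by
    refine ⟨hh0, fun v => ?_⟩
    have h1 := S37.HI.pushforwardNormFormula (F := F) hF hF' g hg.1 ((m : ℤ) • Dg)
      (fun w => (hg.2 w).symm) v
    rw [hN, ord_pow, map_zsmul, Finsupp.smul_apply, smul_eq_mul] at h1
    exact (mul_left_cancel₀ hmZ h1).symm
  have hpush0 : ∀ v : Place K F, Df v ≠ 0 → Divisor.pushforward F Dg v = 0 := by
    intro v hv
    rw [pushforward_apply' hF hF']
    refine Finset.sum_eq_zero fun w hw => ?_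
    rw [Finset.mem_filter] at hw
    exact (hdisj w).resolve_right (by rwa [hw.2])
  have hunit : UnitOn Df h := ⟨hh0, fun v hv => by rw [hdivh.2, hpush0 v hv]⟩
  rw [← evD_norm hF hF' Df (fun w hw => by
      rw [hg.2, Finsupp.smul_apply, (hdisj w).resolve_right hw, smul_zero]),
    hN, evD_pow hF hunit, ← zpow_natCast, ← evD_zsmul hF hunit,
    evD_algebraMap hF hF' Dg hf.1 (fun w hw => by
      rw [hf.2, Finsupp.smul_apply, (hdisj w).resolve_left hw, smul_zero])]
  refine wr K F hF h f _ _ hdivh hf (fun v => ?_)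
  by_cases hv : Df v = 0
  · right
    rw [Finsupp.smul_apply, hv, smul_zero]
  · left
    exact hpush0 v hv

end Fermat.Agent.S19.WR
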