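import Mathlib

set_option autoImplicit false

/-!
# S19 / WR, part (C): Weil reciprocity on the projective line, polynomial form
-/

namespace Fermat.Agent.S19.WR

open Polynomial

variable {K F : Type*} [Field K] [Field F] [Algebra K F]

theorem aeval_inv_eq_reverse {g : F} (hg : g ≠ 0) (p : K[X]) :
    aeval g⁻¹ p * g ^ p.natDegree = aeval g p.reverse := by
  letI : Invertible g⁻¹ := invertibleOfNonzero (inv_ne_zero hg)
  have h := eval₂_reverse_mul_pow (algebraMap K F) g⁻¹ p
  have h1 : ⅟(g⁻¹) = g := by rw [invOf_eq_inv, inv_inv]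
  rw [h1] at h
  rw [aeval_def, aeval_def, ← h, mul_assoc, ← mul_pow, inv_mul_cancel₀ hg, one_pow, mul_one]

theorem natTrailingDegree_eq_zero_of_eval {p : K[X]} (hp : p.eval 0 ≠ 0) :
    p.natTrailingDegree = 0 := by
  rw [natTrailingDegree_eq_zero]
  right
  rwa [coeff_zero_eq_eval_zero]

theorem reverse_leadingCoeff_of_eval {p : K[X]} (hp : p.eval 0 ≠ 0) :
    p.reverse.leadingCoeff = p.eval 0 := by
  rw [reverse_leadingCoeff, trailingCoeff, natTrailingDegree_eq_zero_of_eval hp,
    coeff_zero_eq_eval_zero]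

theorem reverse_natDegree_of_eval {p : K[X]} (hp : p.eval 0 ≠ 0) :
    p.reverse.natDegree = p.natDegree := by
  rw [reverse_natDegree, natTrailingDegree_eq_zero_of_eval hp, Nat.sub_zero]

theorem reverse_eval_zero_ne {p : K[X]} (hp : p ≠ 0) : p.reverse.eval 0 ≠ 0 := by
  rw [← coeff_zero_eq_eval_zero, coeff_zero_reverse]
  exact leadingCoeff_ne_zero.mpr hp

theorem ne_zero_of_eval_ne {p : K[X]} {c : K} (hp : p.eval c ≠ 0) : p ≠ 0 := by
  rintro rfl
  simp at hp

theorem eval_zero_eq_prod_roots [IsAlgClosed K] (p : K[X]) :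
    p.eval 0 = p.leadingCoeff * (-1) ^ p.natDegree * p.roots.prod := by
  have h := (IsAlgClosed.splits p).eq_prod_roots
  conv_lhs => rw [h]
  rw [eval_mul, eval_C, eval_multiset_prod, Multiset.map_map]
  have h2 : (p.roots.map ((fun q : K[X] => q.eval 0) ∘ fun a => X - C a)) =
      p.roots.map (fun a => (-1) * a) := by
    refine Multiset.map_congr rfl fun a _ => ?_
    simp
  rw [h2, Multiset.prod_map_mul, Multiset.map_const', Multiset.prod_replicate, Multiset.map_id',
    (IsAlgClosed.splits p).natDegree_eq_card_roots, mul_assoc]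

/-- an auxiliary cancellation: units at `0` times powers of `X`. -/
theorem pow_eq_of_mul_X_pow {u w : K[X]} (hu : u.eval 0 ≠ 0) (hw : w.eval 0 ≠ 0) {a b : ℕ}
    (H : u * X ^ a = w * X ^ b) : a = b ∧ u = w := by
  have key : ∀ {u w : K[X]} {a b : ℕ}, u.eval 0 ≠ 0 → u * X ^ a = w * X ^ b → ¬ a < b := by
    intro u w a b hu H hab
    obtain ⟨k, rfl⟩ := Nat.exists_eq_add_of_lt hab
    have h1 : u * X ^ a = (w * X ^ (k + 1)) * X ^ a := by
      rw [H]; ring
    have h2 := mul_right_cancel₀ (pow_ne_zero a (X_ne_zero (R := K))) h1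
    apply hu
    rw [h2]
    simp
  have hab : a = b := le_antisymm (not_lt.mp (key hw H.symm)) (not_lt.mp (key hu H))
  subst hab
  exact ⟨rfl, mul_right_cancel₀ (pow_ne_zero a (X_ne_zero (R := K))) H⟩

/-- **Weil reciprocity on `P¹`** for the pair (coordinate, `n/d`), in polynomial form. -/
theorem p1_lemma [IsAlgClosed K] {g : F} (hg : Transcendental K g) {n d n' d' : K[X]}
    (hn : n.eval 0 ≠ 0) (hd : d.eval 0 ≠ 0) (hn' : n'.eval 0 ≠ 0) (hd' : d'.eval 0 ≠ 0)
    (H : aeval g n * aeval g⁻¹ d' = aeval g⁻¹ n' * aeval g d) :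
    n.eval 0 * d'.eval 0 * d.roots.prod = n'.eval 0 * d.eval 0 * n.roots.prod := by
  have hg0 : g ≠ 0 := fun h0 => hg (h0 ▸ isAlgebraic_zero)
  have h1 : aeval g (n * d'.reverse * X ^ n'.natDegree) =
      aeval g (n'.reverse * d * X ^ d'.natDegree) := by
    simp only [map_mul, map_pow, aeval_X]
    rw [← aeval_inv_eq_reverse hg0, ← aeval_inv_eq_reverse hg0]
    linear_combination (g ^ d'.natDegree * g ^ n'.natDegree) * H
  have h2 : n * d'.reverse * X ^ n'.natDegree = n'.reverse * d * X ^ d'.natDegree :=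
    (transcendental_iff_injective.mp hg) h1
  have hn0 := ne_zero_of_eval_ne hn
  have hd0 := ne_zero_of_eval_ne hd
  have hn'0 := ne_zero_of_eval_ne hn'
  have hd'0 := ne_zero_of_eval_ne hd'
  obtain ⟨h3, h4⟩ := pow_eq_of_mul_X_pow
    (by rw [eval_mul]; exact mul_ne_zero hn (reverse_eval_zero_ne hd'0))
    (by rw [eval_mul]; exact mul_ne_zero (reverse_eval_zero_ne hn'0) hd) h2
  have hl := congrArg leadingCoeff h4
  rw [leadingCoeff_mul, leadingCoeff_mul, reverse_leadingCoeff_of_eval hd',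
    reverse_leadingCoeff_of_eval hn'] at hl
  have hdeg := congrArg natDegree h4
  have hrd' : d'.reverse ≠ 0 := ne_zero_of_eval_ne (reverse_eval_zero_ne hd'0)
  have hrn' : n'.reverse ≠ 0 := ne_zero_of_eval_ne (reverse_eval_zero_ne hn'0)
  rw [natDegree_mul hn0 hrd', natDegree_mul hrn' hd0, reverse_natDegree_of_eval hd',
    reverse_natDegree_of_eval hn'] at hdeg
  have hdeg' : n.natDegree = d.natDegree := by omega
  rw [eval_zero_eq_prod_roots n, eval_zero_eq_prod_roots d, hdeg']
  linear_combination ((-1) ^ d.natDegree * n.roots.prod * d.roots.prod) * hl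

end Fermat.Agent.S19.WR
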